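import Mathlib

/-!
# S33 consumer (helper95), part 1: the predicate `OrdPts`

`X` an abelian group, `act : G → X → X` a family of maps (in the applications: the action of the
absolute Galois group), `Iner : Set G` (in the applications: the inertia subgroup of a place over
`p`).

* `NoTriv Iner act X1` : the subgroup `X1` has no nonzero subquotient `B / A` (`A ≤ B ≤ X1`) on which
  `Iner` acts trivially (`act τ b - b ∈ A` for `τ ∈ Iner`, `b ∈ B`);
* `OrdPts Iner act` : there is a subgroup `X1` containing all `act τ x - x` (`τ ∈ Iner`) without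
  nonzero `Iner`-trivial subquotients ("`X` is an extension of an inertia-trivial group by a group
  without inertia-trivial subquotients");
* `OrdPts.of_subquotient` : the predicate passes to equivariant subquotients;
* `OrdPts.pi` : and to finite powers (for actions fixing `0`);
* `inertiaSpan`, `OrdPts.noTriv_inertiaSpan` : the canonical choice of `X1`.
-/

set_option autoImplicit false

namespace Fermat.Agent.S33x.Consumer.Ord

variable {G : Type*} {X : Type*} [AddCommGroup X]

/-- the subgroup `X1` has no nonzero subquotient with trivial action of `Iner`. -/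
def NoTriv (Iner : Set G) (act : G → X → X) (X1 : AddSubgroup X) : Prop :=
  ∀ A B : AddSubgroup X, A ≤ B → B ≤ X1 → (∀ τ ∈ Iner, ∀ b ∈ B, act τ b - b ∈ A) → B ≤ A

/-- `X` is an extension of a group with trivial action of `Iner` by a group without nonzero
`Iner`-trivial subquotients. -/
def OrdPts (Iner : Set G) (act : G → X → X) : Prop :=
  ∃ X1 : AddSubgroup X, (∀ τ ∈ Iner, ∀ x : X, act τ x - x ∈ X1) ∧ NoTriv Iner act X1

theorem NoTriv.mono {Iner : Set G} {act : G → X → X} {X1 X2 : AddSubgroup X}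
    (h : NoTriv Iner act X1) (h21 : X2 ≤ X1) : NoTriv Iner act X2 :=
  fun A B hAB hB hτ => h A B hAB (hB.trans h21) hτ

/-- the subgroup generated by the `act τ x - x`, `τ ∈ Iner`. -/
def inertiaSpan (Iner : Set G) (act : G → X → X) : AddSubgroup X :=
  AddSubgroup.closure {y | ∃ τ ∈ Iner, ∃ x : X, y = act τ x - x}

theorem sub_mem_inertiaSpan {Iner : Set G} {act : G → X → X} {τ : G} (hτ : τ ∈ Iner) (x : X) :
    act τ x - x ∈ inertiaSpan Iner act :=
  AddSubgroup.subset_closure ⟨τ, hτ, x, rfl⟩

theorem inertiaSpan_le {Iner : Set G} {act : G → X → X} {X1 : AddSubgroup X}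
    (h : ∀ τ ∈ Iner, ∀ x : X, act τ x - x ∈ X1) : inertiaSpan Iner act ≤ X1 := by
  rw [inertiaSpan, AddSubgroup.closure_le]
  rintro _ ⟨τ, hτ, x, rfl⟩
  exact h τ hτ x

/-- the canonical form of `OrdPts`. -/
theorem OrdPts.noTriv_inertiaSpan {Iner : Set G} {act : G → X → X} (h : OrdPts Iner act) :
    NoTriv Iner act (inertiaSpan Iner act) := by
  obtain ⟨X1, h1, h2⟩ := h
  exact h2.mono (inertiaSpan_le h1)

theorem ordPts_iff {Iner : Set G} {act : G → X → X} :
    OrdPts Iner act ↔ NoTriv Iner act (inertiaSpan Iner act) :=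
  ⟨OrdPts.noTriv_inertiaSpan, fun h => ⟨_, fun _ hτ x => sub_mem_inertiaSpan hτ x, h⟩⟩

section SubQuot

variable {Z : Type*} {A : Type*} [AddCommGroup Z] [AddCommGroup A]
  {Iner : Set G} {actX : G → X → X} {actZ : G → Z → Z} {actA : G → A → A}

/-- **Subquotients.** If `Ψ : A →+ X` and `Φ : A →+ Z` are equivariant, `Φ` is onto and
`ker Ψ ≤ ker Φ`, then `OrdPts` passes from `X` to `Z`. -/
theorem OrdPts.of_subquotient (hX : OrdPts Iner actX) (Ψ : A →+ X) (Φ : A →+ Z)
    (hΨ : ∀ σ a, Ψ (actA σ a) = actX σ (Ψ a)) (hΦ : ∀ σ a, Φ (actA σ a) = actZ σ (Φ a))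
    (hsurj : Function.Surjective Φ) (hker : ∀ a, Ψ a = 0 → Φ a = 0) :
    OrdPts Iner actZ := by
  obtain ⟨X1, h1, h2⟩ := hX
  refine ⟨(X1.comap Ψ).map Φ, ?_, ?_⟩
  · intro τ hτ z
    obtain ⟨a, rfl⟩ := hsurj z
    refine ⟨actA τ a - a, ?_, ?_⟩
    · show Ψ (actA τ a - a) ∈ X1
      rw [map_sub, hΨ]
      exact h1 τ hτ _
    · rw [map_sub, hΦ]
  · intro A' B' hAB hB hτ
    -- the pulled back pair
    set B : AddSubgroup X := X1 ⊓ (B'.comap Φ).map Ψ with hBdef
    set A0 : AddSubgroup X := X1 ⊓ (A'.comap Φ).map Ψ with hAdef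
    have hA0B : A0 ≤ B := by
      intro x hx
      refine ⟨hx.1, ?_⟩
      obtain ⟨a, ha, rfl⟩ := hx.2
      exact ⟨a, hAB ha, rfl⟩
    have hBX1 : B ≤ X1 := inf_le_left
    have hτB : ∀ τ ∈ Iner, ∀ b ∈ B, actX τ b - b ∈ A0 := by
      intro τ hτ' b hb
      refine ⟨h1 τ hτ' b, ?_⟩
      obtain ⟨a, ha, rfl⟩ := hb.2
      refine ⟨actA τ a - a, ?_, ?_⟩
      · show Φ (actA τ a - a) ∈ A'
        rw [map_sub, hΦ]
        exact hτ τ hτ' _ ha
      · rw [map_sub, hΨ]
    have hBA := h2 A0 B hA0B hBX1 hτB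
    intro z hz
    obtain ⟨a, ha, rfl⟩ := hB hz
    have ha1 : Ψ a ∈ X1 := ha
    have hΨaB : Ψ a ∈ B := ⟨ha1, a, hz, rfl⟩
    obtain ⟨-, a', ha', haa'⟩ := hBA hΨaB
    have h0 : Φ (a - a') = 0 := hker _ (by rw [map_sub, haa', sub_self])
    have : Φ a = Φ a' := by
      rw [map_sub, sub_eq_zero] at h0
      exact h0
    rw [this]
    exact ha'

end SubQuot

section Pi

variable {ι : Type*} {Iner : Set G} {act : G → X → X}

/-- **Finite powers.** -/
theorem OrdPts.pi [Finite ι] (hX : OrdPts Iner act) (h0 : ∀ σ, act σ 0 = 0) :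
    OrdPts Iner (fun σ (f : ι → X) i => act σ (f i)) := by
  classical
  obtain ⟨X1, h1, h2⟩ := hX
  refine ⟨AddSubgroup.pi Set.univ fun _ => X1, ?_, ?_⟩
  · intro τ hτ f
    rw [AddSubgroup.mem_pi]
    intro i _
    exact h1 τ hτ (f i)
  · intro A B hAB hB hτ
    -- induction on the support
    have key : ∀ s : Finset ι, ∀ b ∈ B, (∀ i ∉ s, b i = 0) → b ∈ A := by
      intro s
      induction s using Finset.induction_on with
      | empty =>
        intro b _ hb0
        have : b = 0 := funext fun i => hb0 i (Finset.notMem_empty i)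
        rw [this]
        exact A.zero_mem
      | insert j s hj ih =>
        intro b hb hb0
        -- the subgroup of elements of `B` supported in `insert j s`
        let Bj : AddSubgroup (ι → X) :=
          { carrier := {c | c ∈ B ∧ ∀ i ∉ insert j s, c i = 0}
            zero_mem' := ⟨B.zero_mem, fun _ _ => rfl⟩
            add_mem' := fun {c c'} hc hc' => ⟨B.add_mem hc.1 hc'.1, fun i hi => by
              rw [Pi.add_apply, hc.2 i hi, hc'.2 i hi, add_zero]⟩
            neg_mem' := fun {c} hc => ⟨B.neg_mem hc.1, fun i hi => by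
              rw [Pi.neg_apply, hc.2 i hi, neg_zero]⟩ }
        let ev : (ι → X) →+ X := Pi.evalAddMonoidHom (fun _ => X) j
        have hB' : Bj.map ev ≤ X1 := by
          rintro _ ⟨c, hc, rfl⟩
          have := hB hc.1
          rw [AddSubgroup.mem_pi] at this
          exact this j (Set.mem_univ j)
        have hA'B' : (A ⊓ Bj).map ev ≤ Bj.map ev := AddSubgroup.map_mono inf_le_right
        have hτ' : ∀ τ ∈ Iner, ∀ x ∈ Bj.map ev, act τ x - x ∈ (A ⊓ Bj).map ev := by
          rintro τ hτ0 _ ⟨c, hc, rfl⟩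
          refine ⟨(fun i => act τ (c i)) - c, ⟨hτ τ hτ0 c hc.1, hAB (hτ τ hτ0 c hc.1), ?_⟩, rfl⟩
          intro i hi
          rw [Pi.sub_apply, hc.2 i hi, h0, sub_zero]
        have hle := h2 _ _ hA'B' hB' hτ'
        obtain ⟨a, ⟨haA, haBj⟩, haj⟩ := hle ⟨b, ⟨hb, hb0⟩, rfl⟩
        have hba : b - a ∈ A := by
          refine ih (b - a) (B.sub_mem hb haBj.1) fun i hi => ?_
          by_cases hij : i = j
          · subst hij
            rw [Pi.sub_apply]
            have : a i = b i := haj
            rw [this, sub_self]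
          · have hi' : i ∉ insert j s := by
              rw [Finset.mem_insert, not_or]
              exact ⟨hij, hi⟩
            rw [Pi.sub_apply, hb0 i hi', haBj.2 i hi', sub_zero]
        have : b = (b - a) + a := by abel
        rw [this]
        exact A.add_mem hba haA
    intro b hb
    have : Fintype ι := Fintype.ofFinite ι
    exact key Finset.univ b hb fun i hi => absurd (Finset.mem_univ i) hi

end Pi

end Fermat.Agent.S33x.Consumer.Ord
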