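import Mathlib
import Fermat.Agent.S33x.Consumer.OrdPts
import Fermat.Agent.S56x.Cheb.ValConj
import Fermat.Agent.Lib.CFT.Profinite.BridgeNormal

/-!
# S33 consumer (helper95), part 5: one place over `p` suffices

* `OrdPts.conj` : for a group action `act : G →* AddMonoid.End X`, `OrdPts Iner` implies
  `OrdPts {τ | g⁻¹ * τ * g ∈ Iner}` (transport of structure along `x ↦ g x`);
* `ordPts_of_place` : if `OrdPts` holds for the inertia group of ONE valuation subring of `ℚ̄` over the
  prime `p`, it holds for the inertia group of every valuation subring over `p` (they are conjugate: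
  `S56x/Cheb/ValConj.exists_smul_eq_of_liesOverPrime`).
-/

set_option autoImplicit false
set_option linter.unusedSectionVars false

namespace Fermat.Agent.S33x.Consumer.Conj

open Fermat.Agent.S33x.Consumer.Ord

local notation "Γℚ" => (AlgebraicClosure ℚ ≃ₐ[ℚ] AlgebraicClosure ℚ)
local notation "Qb" => AlgebraicClosure ℚ

section Abstract

variable {G : Type*} [Group G] {X : Type*} [AddCommGroup X]

theorem act_mul (act : G →* AddMonoid.End X) (a b : G) (x : X) :
    act (a * b) x = act a (act b x) := by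
  rw [map_mul]; rfl

theorem act_inv_act (act : G →* AddMonoid.End X) (g : G) (x : X) : act g⁻¹ (act g x) = x := by
  rw [← act_mul, inv_mul_cancel, map_one]; rfl

theorem act_act_inv (act : G →* AddMonoid.End X) (g : G) (x : X) : act g (act g⁻¹ x) = x := by
  rw [← act_mul, mul_inv_cancel, map_one]; rfl

/-- **Conjugation.** -/
theorem OrdPts.conj (act : G →* AddMonoid.End X) (Iner : Set G) (g : G)
    (h : OrdPts Iner (fun σ x => act σ x)) :
    OrdPts {τ | g⁻¹ * τ * g ∈ Iner} (fun σ x => act σ x) := by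
  obtain ⟨X1, h1, h2⟩ := h
  have hconj : ∀ (τ : G) (y : X), act g (act (g⁻¹ * τ * g) y) = act τ (act g y) := by
    intro τ y
    rw [← act_mul, ← act_mul]
    congr 2
    group
  refine ⟨X1.map (act g : X →+ X), ?_, ?_⟩
  · intro τ hτ x
    refine ⟨act (g⁻¹ * τ * g) (act g⁻¹ x) - act g⁻¹ x, h1 _ hτ _, ?_⟩
    show act g (act (g⁻¹ * τ * g) (act g⁻¹ x) - act g⁻¹ x) = act τ x - x
    rw [map_sub, hconj, act_act_inv]
  · intro A' B' hAB hB hτ
    have hBA := h2 (A'.comap (act g : X →+ X)) (B'.comap (act g : X →+ X))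
      (AddSubgroup.comap_mono hAB)
      (by
        intro y hy
        obtain ⟨x1, hx1, hx1y⟩ := hB hy
        have : y = x1 := by
          have h3 : act g x1 = act g y := hx1y
          have := congrArg (fun z => act g⁻¹ z) h3
          simp only [act_inv_act] at this
          exact this.symm
        rw [this]
        exact hx1)
      (by
        intro τ0 hτ0 y hy
        show act g (act τ0 y - y) ∈ A'
        have hmem : g * τ0 * g⁻¹ ∈ {τ | g⁻¹ * τ * g ∈ Iner} := by
          show g⁻¹ * (g * τ0 * g⁻¹) * g ∈ Iner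
          have : g⁻¹ * (g * τ0 * g⁻¹) * g = τ0 := by group
          rw [this]
          exact hτ0
        have h4 := hτ _ hmem (act g y) hy
        have h5 : act (g * τ0 * g⁻¹) (act g y) = act g (act τ0 y) := by
          rw [← act_mul, ← act_mul]
          congr 2
          group
        rw [map_sub]
        have h4' : act (g * τ0 * g⁻¹) (act g y) - act g y ∈ A' := h4
        rw [h5] at h4'
        exact h4')
    intro b' hb'
    have h6 : act g⁻¹ b' ∈ B'.comap (act g : X →+ X) := by
      show act g (act g⁻¹ b') ∈ B'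
      rw [act_act_inv]
      exact hb'
    have h7 := hBA h6
    have h8 : act g (act g⁻¹ b') ∈ A' := h7
    rwa [act_act_inv] at h8

end Abstract

/-- **One place over `p` suffices.** -/
theorem ordPts_of_place {X : Type*} [AddCommGroup X] (act : Γℚ →* AddMonoid.End X) {p : ℕ}
    (hp : p.Prime) (P0 : ValuationSubring Qb) (hP0 : P0.LiesOverPrime p)
    (h : OrdPts (P0.inertiaSubgroupIn ℚ : Set Γℚ) (fun σ x => act σ x))
    (P : ValuationSubring Qb) (hP : P.LiesOverPrime p) :
    OrdPts (P.inertiaSubgroupIn ℚ : Set Γℚ) (fun σ x => act σ x) := by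
  have hgal : IsGalois ℚ Qb := Fermat.Agent.Lib.CFT.Profinite.Bridge.isGalois_qbar
  obtain ⟨g, hg⟩ := Fermat.Agent.S56x.Cheb.exists_smul_eq_of_liesOverPrime hp P0 P hP0 hP
  have h1 := OrdPts.conj act (P0.inertiaSubgroupIn ℚ : Set Γℚ) g h
  have hset : {τ : Γℚ | g⁻¹ * τ * g ∈ (P0.inertiaSubgroupIn ℚ : Set Γℚ)} =
      (P.inertiaSubgroupIn ℚ : Set Γℚ) := by
    ext τ
    rw [← hg]
    exact (Fermat.Agent.Lib.CFT.Profinite.Bridge.mem_inertiaSubgroupIn_smul_iff g P0 τ).symm
  rw [hset] at h1
  exact h1

end Fermat.Agent.S33x.Consumer.Conj
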