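import Mathlib
import Fermat.Agent.S56x.Flat.InertiaField
import Fermat.Agent.Gateway.S31.Approx

/-!
# S33 consumer, LEAF I (helper53): an inertia element at `p` on which `det ρ - 1` is a unit

For an odd prime `p`, EVERY valuation subring `P` of `ℚ̄` over `p` has an element `s` of its
inertia group which moves a `p`-th root of unity (`exists_inertia_apply_ne`): otherwise `1 - ζ`
would be an inertia-fixed element of the maximal ideal, hence divisible by `p`
(`S56x/Flat/InertiaField.div_mem_of_fixed`), which contradicts `∏ (1 - ζ ^ j) = p`.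

For a Hecke-Galois datum `H` (`p ∈ S`, `p ∈ m_𝒪`) the level-one approximation
`Gateway/S31/Approx.exists_approx` gives `e` with `det ρ(s) ≡ e` modulo `m_T` and `s ζ = ζ ^ e` on
`μ_p`; as `s` moves `μ_p`, `e ≢ 1` modulo `p`, so `det ρ(s) - 1` is a unit of `T`
(`exists_inertia_det_sub_one_isUnit`).
-/

set_option autoImplicit false
set_option maxHeartbeats 400000
set_option linter.style.haveILetI false
set_option linter.unusedSectionVars false

namespace Fermat.Agent.S33x.Consumer.InertiaUnit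

open Fermat.Agent.Gateway.S31Red

local notation "Qbar" => AlgebraicClosure ℚ
local notation "Γℚ" => (AlgebraicClosure ℚ ≃ₐ[ℚ] AlgebraicClosure ℚ)

/-! ### Roots of unity in a valuation subring -/

/-- A root of unity lies in every valuation subring. -/
theorem mem_of_pow_eq_one (P : ValuationSubring Qbar) {n : ℕ} (hn : n ≠ 0) {ζ : Qbar}
    (hζ : ζ ^ n = 1) : ζ ∈ P := by
  rcases P.mem_or_inv_mem ζ with h | h
  · exact h
  · have h1 : ζ = ζ⁻¹ ^ (n - 1) := by
      have hζ0 : ζ ≠ 0 := by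
        rintro rfl
        rw [zero_pow hn] at hζ
        exact zero_ne_one hζ
      have h2 : ζ * ζ ^ (n - 1) = 1 := by
        rw [← pow_succ', Nat.sub_add_cancel (Nat.one_le_iff_ne_zero.mpr hn), hζ]
      rw [inv_pow]
      exact eq_inv_of_mul_eq_one_left h2
    rw [h1]
    exact P.pow_mem h _

/-- Over `p`, a nonunit times an element of `P` is a nonunit. -/
theorem mul_mem_nonunits (P : ValuationSubring Qbar) {a b : Qbar} (ha : a ∈ P.nonunits)
    (hb : b ∈ P) : a * b ∈ P.nonunits := by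
  rw [ValuationSubring.mem_nonunits_iff] at ha ⊢
  rw [map_mul]
  have hb' : P.valuation b ≤ 1 := (P.valuation_le_one_iff b).mpr hb
  calc P.valuation a * P.valuation b ≤ P.valuation a * 1 := mul_le_mul_right hb' _
    _ = P.valuation a := mul_one _
    _ < 1 := ha

/-- If a power of an element of `P` is a nonunit, so is the element. -/
theorem mem_nonunits_of_pow (P : ValuationSubring Qbar) {a : Qbar} (ha : a ∈ P) {n : ℕ}
    (h : a ^ n ∈ P.nonunits) : a ∈ P.nonunits := by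
  rw [ValuationSubring.mem_nonunits_iff] at h ⊢
  have ha' : P.valuation a ≤ 1 := (P.valuation_le_one_iff a).mpr ha
  refine lt_of_le_of_ne ha' fun h1 => ?_
  rw [map_pow, h1, one_pow] at h
  exact lt_irrefl _ h

/-- A `p`-th root of unity is congruent to `1` modulo the maximal ideal of a valuation subring over
`p` (`p` odd). -/
theorem one_sub_mem_nonunits (P : ValuationSubring Qbar) {p : ℕ} (hp : p.Prime) (hp2 : p ≠ 2)
    (hP : P.LiesOverPrime p) {ζ : Qbar} (hζ : ζ ^ p = 1) : 1 - ζ ∈ P.nonunits := by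
  have hζP : ζ ∈ P := mem_of_pow_eq_one P hp.ne_zero hζ
  have h1P : (1 : Qbar) - ζ ∈ P := P.sub_mem P.one_mem hζP
  refine mem_nonunits_of_pow P h1P (n := p) ?_
  have : Fact p.Prime := ⟨hp⟩
  -- the binomial formula in the ring `P`
  obtain ⟨r, hr⟩ := exists_add_pow_prime_eq hp (1 : P) (-⟨ζ, hζP⟩)
  have hodd : Odd p := hp.odd_of_ne_two hp2
  have h2 : ((1 : Qbar) - ζ) ^ p = (p : Qbar) * (-ζ * (r : Qbar)) := by
    have := congrArg P.subtype hr
    simp only [map_add, map_pow, map_one, map_mul, map_neg, map_natCast] at this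
    have hz : P.subtype ⟨ζ, hζP⟩ = ζ := rfl
    have hr' : P.subtype r = (r : Qbar) := rfl
    rw [hz, hr', ← sub_eq_add_neg, one_pow, hodd.neg_pow, hζ] at this
    rw [this]
    ring
  rw [h2]
  exact mul_mem_nonunits P hP (mul_mem (neg_mem hζP) r.2)

/-! ### Inertia moves `μ_p` -/

/-- **Inertia at any place over an odd prime `p` moves `μ_p`.** -/
theorem exists_inertia_apply_ne (P : ValuationSubring Qbar) {p : ℕ} (hp : p.Prime) (hp2 : p ≠ 2)
    (hP : P.LiesOverPrime p) :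
    ∃ s ∈ P.inertiaSubgroupIn ℚ, ∃ ζ : Qbar, ζ ^ p = 1 ∧ s ζ ≠ ζ := by
  classical
  by_contra hcon
  have hfix : ∀ s ∈ P.inertiaSubgroupIn ℚ, ∀ ζ : Qbar, ζ ^ p = 1 → s ζ = ζ := by
    intro s hs ζ hζ
    by_contra hne
    exact hcon ⟨s, hs, ζ, hζ, hne⟩
  -- a primitive `p`-th root of unity
  haveI : NeZero p := ⟨hp.ne_zero⟩
  haveI : NeZero (p : ℚ) := ⟨by exact_mod_cast hp.ne_zero⟩
  haveI : HasEnoughRootsOfUnity Qbar p := AlgebraicClosure.hasEnoughRootsOfUnity ℚ p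
  obtain ⟨ζ, hζ⟩ := HasEnoughRootsOfUnity.exists_primitiveRoot Qbar p
  have hζp : ζ ^ p = 1 := hζ.pow_eq_one
  have hζP : ζ ∈ P := mem_of_pow_eq_one P hp.ne_zero hζp
  -- `1 - ζ` is an inertia-fixed nonunit, hence divisible by `p`
  have hc : (1 : Qbar) - ζ ∈ P.nonunits := one_sub_mem_nonunits P hp hp2 hP hζp
  obtain ⟨d, hd, hd1⟩ := Fermat.Agent.S56x.Flat.InertiaField.div_mem_of_fixed P hp hP (1 - ζ) hc
    (fun t ht => by rw [map_sub, map_one, hfix t ht ζ hζp])
  -- the product formula `∏ (1 - ζ ^ (k + 1)) = p`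
  obtain ⟨n, rfl⟩ : ∃ n, p = n + 1 := ⟨p - 1, (Nat.sub_add_cancel hp.one_le).symm⟩
  have hprod := hζ.prod_one_sub_pow_eq_order
  have hfac : ∀ k : ℕ, (1 : Qbar) - ζ ^ (k + 1) = (1 - ζ) * ∑ i ∈ Finset.range (k + 1), ζ ^ i := by
    intro k
    have := mul_geom_sum ζ (k + 1)
    linear_combination this
  have hG : ∀ k : ℕ, (∑ i ∈ Finset.range (k + 1), ζ ^ i) ∈ P := fun k =>
    P.toSubring.sum_mem fun i _ => P.pow_mem hζP i
  have h3 : ∏ k ∈ Finset.range n, ((1 : Qbar) - ζ ^ (k + 1)) =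
      (1 - ζ) ^ n * ∏ k ∈ Finset.range n, ∑ i ∈ Finset.range (k + 1), ζ ^ i := by
    rw [Finset.prod_congr rfl fun k _ => hfac k, Finset.prod_mul_distrib, Finset.prod_const,
      Finset.card_range]
  have hGP : (∏ k ∈ Finset.range n, ∑ i ∈ Finset.range (k + 1), ζ ^ i) ∈ P :=
    P.toSubring.prod_mem fun k _ => hG k
  set G : Qbar := ∏ k ∈ Finset.range n, ∑ i ∈ Finset.range (k + 1), ζ ^ i with hGdef
  rw [h3, hd1] at hprod
  -- `n ≥ 2`
  have hn2 : 2 ≤ n := by
    have h1 : 2 ≤ n + 1 := hp.two_le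
    have h2 : n + 1 ≠ 2 := hp2
    omega
  obtain ⟨m, rfl⟩ : ∃ m, n = m + 2 := ⟨n - 2, by omega⟩
  have hp0 : ((m + 2 + 1 : ℕ) : Qbar) ≠ 0 := by exact_mod_cast hp.ne_zero
  have hP' : ((m + 2 + 1 : ℕ) : Qbar) ∈ P.nonunits := hP
  have hcast : ((m + 2 : ℕ) : Qbar) + 1 = ((m + 2 + 1 : ℕ) : Qbar) := by push_cast; ring
  rw [hcast] at hprod
  generalize ((m + 2 + 1 : ℕ) : Qbar) = q at hprod hp0 hP'
  -- cancel one factor `p`
  have h4 : q * (q ^ m * (q * (d ^ (m + 2) * G))) = q * 1 := by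
    rw [mul_one]
    calc q * (q ^ m * (q * (d ^ (m + 2) * G))) = (q * d) ^ (m + 2) * G := by ring
      _ = q := hprod
  have h5 := mul_left_cancel₀ hp0 h4
  -- so `1` is a nonunit: contradiction
  have hqP : q ∈ P := by
    have h := hP'
    rw [ValuationSubring.mem_nonunits_iff] at h
    exact (P.valuation_le_one_iff q).mp h.le
  have h6 : q * (d ^ (m + 2) * G) ∈ P.nonunits :=
    mul_mem_nonunits P hP' (mul_mem (pow_mem hd _) hGP)
  have h7 : (1 : Qbar) ∈ P.nonunits := by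
    rw [← h5, mul_comm]
    exact mul_mem_nonunits P h6 (pow_mem hqP m)
  rw [ValuationSubring.mem_nonunits_iff, map_one] at h7
  exact lt_irrefl _ h7

/-! ### The unit `det ρ(s) - 1` -/

variable {p : ℕ} {N : ℕ} [NeZero N] {S : Finset ℕ}
  {𝒪 : Type} [CommRing 𝒪] [IsDomain 𝒪] [IsDiscreteValuationRing 𝒪]
  [IsAdicComplete (IsLocalRing.maximalIdeal 𝒪) 𝒪]
  {θ : CuspForm.heckeAlgebra N 2 (↑S : Set ℕ) →+* IsLocalRing.ResidueField 𝒪}
  {T : Type} [CommRing T] [IsLocalRing T] [IsNoetherianRing T]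
  [IsAdicComplete (IsLocalRing.maximalIdeal T) T] [Algebra 𝒪 T] [IsLocalHom (algebraMap 𝒪 T)]
  [Module.Finite 𝒪 T] [Module.Free 𝒪 T]

/-- `p` lies in the maximal ideal of `T`. -/
theorem natCast_mem_maximalIdeal' (hp𝒪 : (p : 𝒪) ∈ IsLocalRing.maximalIdeal 𝒪) :
    (p : T) ∈ IsLocalRing.maximalIdeal T := by
  rw [IsLocalRing.mem_maximalIdeal]
  intro hu
  have h1 : (p : T) = algebraMap 𝒪 T (p : 𝒪) := by rw [map_natCast]
  rw [h1] at hu
  exact (IsLocalRing.mem_maximalIdeal _).mp hp𝒪 (isUnit_of_map_unit (algebraMap 𝒪 T) _ hu)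

/-- **LEAF I.** Some element `s` of the inertia group at `P ∣ p` (`p` odd) has `det ρ(s) - 1` a
unit of `T`. -/
theorem exists_inertia_det_sub_one_isUnit [Finite (IsLocalRing.ResidueField 𝒪)]
    (hF : FrobPowerDense) (hp : p.Prime) (hp2 : p ≠ 2)
    (hp𝒪 : (p : 𝒪) ∈ IsLocalRing.maximalIdeal 𝒪) (hpS : p ∈ S)
    (hNS : ∀ q : ℕ, q.Prime → q ∣ N → q ∈ S)
    (H : CuspForm.HeckeGaloisRepDatum N (↑S : Set ℕ) 𝒪 θ T) (D : TorsionHeckeData p N S)
    (P : ValuationSubring Qbar) (hP : P.LiesOverPrime p) :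
    ∃ s ∈ P.inertiaSubgroupIn ℚ, IsUnit (LinearMap.det (H.ρ.ρ s) - 1) := by
  obtain ⟨s, hs, ζ, hζ, hne⟩ := exists_inertia_apply_ne P hp hp2 hP
  refine ⟨s, hs, ?_⟩
  obtain ⟨y, e, -, hdet, -, hcyc⟩ :=
    Fermat.Agent.Gateway.S31Red.exists_approx hF hp hpS hNS H D s 1
  rw [pow_one] at hdet
  have hcyc' : s ζ = ζ ^ e := hcyc ζ (by rwa [pow_one])
  have hpT : (p : T) ∈ IsLocalRing.maximalIdeal T := natCast_mem_maximalIdeal' hp𝒪
  -- `e ≢ 1` modulo `p`
  have hmod : ¬ e ≡ 1 [MOD p] := by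
    intro h
    apply hne
    rw [hcyc']
    -- `ζ ^ e = ζ ^ 1`
    have h1 : ζ ^ e = ζ ^ 1 := by
      rw [pow_eq_pow_mod e hζ, pow_eq_pow_mod 1 hζ]
      exact congrArg (fun k => ζ ^ k) h
    rw [h1, pow_one]
  -- `e - 1` is prime to `p`, so `(e : T) - 1` is a unit
  have hndvd : ¬ (p : ℤ) ∣ (e : ℤ) - 1 := by
    intro hdvd
    apply hmod
    have h1 : (1 : ℕ) ≡ e [MOD p] := by
      rw [Nat.modEq_iff_dvd]
      simpa using hdvd
    exact h1.symm
  have hcop : IsCoprime (p : ℤ) ((e : ℤ) - 1) :=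
    (Nat.prime_iff_prime_int.mp hp).irreducible.coprime_iff_not_dvd.mpr hndvd
  have hunit : IsUnit ((e : T) - 1) := by
    by_contra hnu
    have hmem : (e : T) - 1 ∈ IsLocalRing.maximalIdeal T :=
      (IsLocalRing.mem_maximalIdeal _).mpr hnu
    obtain ⟨a, b, hab⟩ := hcop
    have h1 : ((a : T) * (p : T) + (b : T) * ((e : T) - 1)) = 1 := by
      have h := congrArg (fun z : ℤ => (z : T)) hab
      simp only [Int.cast_add, Int.cast_mul, Int.cast_sub, Int.cast_natCast, Int.cast_one] at h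
      exact h
    have h2 : (1 : T) ∈ IsLocalRing.maximalIdeal T := by
      rw [← h1]
      exact Ideal.add_mem _ (Ideal.mul_mem_left _ _ hpT) (Ideal.mul_mem_left _ _ hmem)
    exact (Ideal.ne_top_iff_one _).mp (IsLocalRing.maximalIdeal.isMaximal T).ne_top h2
  -- conclusion
  by_contra hnu
  have hmem : LinearMap.det (H.ρ.ρ s) - 1 ∈ IsLocalRing.maximalIdeal T :=
    (IsLocalRing.mem_maximalIdeal _).mpr hnu
  have h3 : (e : T) - 1 ∈ IsLocalRing.maximalIdeal T := by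
    have : (e : T) - 1 = (LinearMap.det (H.ρ.ρ s) - 1) - (LinearMap.det (H.ρ.ρ s) - (e : T)) := by
      ring
    rw [this]
    exact Ideal.sub_mem _ hmem hdet
  exact (IsLocalRing.mem_maximalIdeal _).mp h3 hunit

end Fermat.Agent.S33x.Consumer.InertiaUnit
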