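import Mathlib
import Fermat.Agent.S33x.Consumer.OrdPts

/-!
# S33 consumer (helper95), part 3a: the algebraic core of the finite level gluing

`T` a local ring, `V` a `T`-module with a basis `B : Fin 2 → V`, `r : G →* End_T V`, `Iner ≤ G`,
`𝔞` an ideal containing a power of the maximal ideal, `U` the `T`-span of the `r τ v - v`
(`τ ∈ Iner`).  If

* the second `B`-coordinate of every `r τ v - v` lies in the maximal ideal,
* `B 0 ∈ U`,
* the image of `U` in `V / 𝔞 V` (the span of the `τ y - y`) has no nonzero subquotient with trivial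
  action of `Iner`,

then the second `B`-coordinate of every `r τ v - v` lies in `𝔞` (`coord_mem_of_noTriv`).
-/

set_option autoImplicit false
set_option linter.unusedSectionVars false

namespace Fermat.Agent.S33x.Consumer.GlueCore

open IsLocalRing Fermat.Agent.S33x.Consumer.Ord

section Local

variable {T : Type*} [CommRing T] [IsLocalRing T]

theorem isUnit_add_of_mem {x y : T} (hx : IsUnit x) (hy : y ∈ maximalIdeal T) : IsUnit (x + y) := by
  by_contra h
  have h1 : x + y ∈ maximalIdeal T := (mem_maximalIdeal _).mpr h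
  have h2 : x ∈ maximalIdeal T := by
    have := Ideal.sub_mem _ h1 hy
    rwa [add_sub_cancel_right] at this
  exact (mem_maximalIdeal _).mp h2 hx

theorem isUnit_sub_of_mem {x y : T} (hx : IsUnit x) (hy : y ∈ maximalIdeal T) : IsUnit (x - y) := by
  rw [sub_eq_add_neg]
  exact isUnit_add_of_mem hx ((maximalIdeal T).neg_mem hy)

theorem mem_of_mul_mem_of_isUnit {x u : T} (hu : IsUnit u) {I : Ideal T} (h : x * u ∈ I) :
    x ∈ I := by
  obtain ⟨w, rfl⟩ := hu
  have := I.mul_mem_right (↑w⁻¹ : T) h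
  rwa [mul_assoc, Units.mul_inv, mul_one] at this

/-- **Socle elements.** -/
theorem exists_socle {𝔞 J : Ideal T} {n : ℕ} (hn : maximalIdeal T ^ n ≤ 𝔞) (hJ : ¬ J ≤ 𝔞) :
    ∃ j ∈ J, j ∉ 𝔞 ∧ ∀ c ∈ maximalIdeal T, c * j ∈ 𝔞 := by
  classical
  obtain ⟨j₀, hj₀J, hj₀⟩ := SetLike.not_le_iff_exists.mp hJ
  have hex : ∃ k : ℕ, ∀ c ∈ maximalIdeal T ^ k, c * j₀ ∈ 𝔞 :=
    ⟨n, fun c hc => 𝔞.mul_mem_right _ (hn hc)⟩
  have hk := Nat.find_spec hex
  set k := Nat.find hex with hkdef
  have hk0 : k ≠ 0 := by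
    intro h0
    rw [h0, pow_zero] at hk
    exact hj₀ (by simpa using hk 1 (by simp))
  obtain ⟨k', hk'⟩ := Nat.exists_eq_succ_of_ne_zero hk0
  have hmin : ¬ ∀ c ∈ maximalIdeal T ^ k', c * j₀ ∈ 𝔞 := by
    apply Nat.find_min hex
    rw [← hkdef, hk']
    exact Nat.lt_succ_self k'
  push Not at hmin
  obtain ⟨c, hc, hcj⟩ := hmin
  refine ⟨c * j₀, J.mul_mem_left _ hj₀J, hcj, fun c' hc' => ?_⟩
  rw [← mul_assoc]
  apply hk
  rw [hk', pow_succ']
  exact Ideal.mul_mem_mul hc' hc

end Local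

section Coord

variable {T : Type*} [CommRing T] {V : Type*} [AddCommGroup V] [Module T V]

theorem repr_mem_of_mem_smul_top (B : Module.Basis (Fin 2) T V) (𝔞 : Ideal T) {x : V}
    (hx : x ∈ 𝔞 • (⊤ : Submodule T V)) (i : Fin 2) : B.repr x i ∈ 𝔞 := by
  refine Submodule.smul_induction_on hx (fun c hc w _ => ?_) (fun x y hx hy => ?_)
  · rw [map_smul, Finsupp.smul_apply, smul_eq_mul]
    exact 𝔞.mul_mem_right _ hc
  · rw [map_add, Finsupp.add_apply]
    exact 𝔞.add_mem hx hy

theorem eq_coord_sum (B : Module.Basis (Fin 2) T V) (x : V) :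
    x = B.repr x 0 • B 0 + B.repr x 1 • B 1 := by
  conv_lhs => rw [← B.sum_repr x, Fin.sum_univ_two]

theorem map_mem_smul_top (f : Module.End T V) (𝔞 : Ideal T) {x : V}
    (hx : x ∈ 𝔞 • (⊤ : Submodule T V)) : f x ∈ 𝔞 • (⊤ : Submodule T V) := by
  refine Submodule.smul_induction_on hx (fun c hc w _ => ?_) (fun x y hx hy => ?_)
  · rw [map_smul]
    exact Submodule.smul_mem_smul hc Submodule.mem_top
  · rw [map_add]
    exact Submodule.add_mem _ hx hy

end Coord

section Core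

variable {T : Type*} [CommRing T] [IsLocalRing T] {V : Type*} [AddCommGroup V] [Module T V]
  {G : Type*} [Group G]

/-- the `T`-span of the `r τ v - v`, `τ ∈ Iner`. -/
def inertiaModule (r : G →* Module.End T V) (Iner : Subgroup G) : Submodule T V :=
  Submodule.span T {y | ∃ τ ∈ Iner, ∃ v : V, y = r τ v - v}

/-- the submodule of the elements killed by the maximal ideal modulo `𝔞 V`. -/
def socleModule (V : Type*) [AddCommGroup V] [Module T V] (𝔞 : Ideal T) : Submodule T V where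
  carrier := {x | ∀ c ∈ maximalIdeal T, c • x ∈ 𝔞 • (⊤ : Submodule T V)}
  zero_mem' := fun c _ => by rw [smul_zero]; exact Submodule.zero_mem _
  add_mem' := fun {x y} hx hy c hc => by
    rw [smul_add]; exact Submodule.add_mem _ (hx c hc) (hy c hc)
  smul_mem' := fun d x hx c hc => by
    rw [smul_comm]; exact Submodule.smul_mem _ d (hx c hc)

variable (r : G →* Module.End T V) (Iner : Subgroup G) (𝔞 : Ideal T)
  (actQ : G → (V ⧸ (𝔞 • (⊤ : Submodule T V))) → (V ⧸ (𝔞 • (⊤ : Submodule T V))))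
  (hQ : ∀ σ v, actQ σ (Submodule.Quotient.mk v) = Submodule.Quotient.mk (r σ v))

include hQ in
/-- the image of the inertia module lies in the inertia span of the quotient. -/
theorem mk_mem_inertiaSpan {u : V} (hu : u ∈ inertiaModule r Iner) :
    (Submodule.Quotient.mk u : V ⧸ (𝔞 • (⊤ : Submodule T V))) ∈
      inertiaSpan (Iner : Set G) actQ := by
  -- the inertia span is stable under scalars
  have hsmul : ∀ (c : T) (y : V ⧸ (𝔞 • (⊤ : Submodule T V))),
      y ∈ inertiaSpan (Iner : Set G) actQ → c • y ∈ inertiaSpan (Iner : Set G) actQ := by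
    intro c y hy
    refine AddSubgroup.closure_induction (p := fun y _ => c • y ∈ inertiaSpan (Iner : Set G) actQ)
      ?_ ?_ ?_ ?_ hy
    · rintro _ ⟨τ, hτ, z, rfl⟩
      obtain ⟨v, rfl⟩ := Submodule.Quotient.mk_surjective _ z
      have : c • (actQ τ (Submodule.Quotient.mk v) - Submodule.Quotient.mk v) =
          actQ τ (Submodule.Quotient.mk (c • v)) -
            (Submodule.Quotient.mk (c • v) : V ⧸ (𝔞 • (⊤ : Submodule T V))) := by
        rw [hQ, hQ, map_smul, smul_sub, Submodule.Quotient.mk_smul, Submodule.Quotient.mk_smul]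
      rw [this]
      exact sub_mem_inertiaSpan hτ _
    · rw [smul_zero]; exact AddSubgroup.zero_mem _
    · intro x y _ _ hx hy
      rw [smul_add]; exact AddSubgroup.add_mem _ hx hy
    · intro x _ hx
      rw [smul_neg]; exact AddSubgroup.neg_mem _ hx
  refine Submodule.span_induction (p := fun u _ =>
    (Submodule.Quotient.mk u : V ⧸ (𝔞 • (⊤ : Submodule T V))) ∈ inertiaSpan (Iner : Set G) actQ)
    ?_ ?_ ?_ ?_ hu
  · rintro _ ⟨τ, hτ, v, rfl⟩
    rw [Submodule.Quotient.mk_sub, ← hQ]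
    exact sub_mem_inertiaSpan hτ _
  · rw [Submodule.Quotient.mk_zero]; exact AddSubgroup.zero_mem _
  · intro x y _ _ hx hy
    rw [Submodule.Quotient.mk_add]; exact AddSubgroup.add_mem _ hx hy
  · intro c x _ hx
    rw [Submodule.Quotient.mk_smul]; exact hsmul c _ hx

include hQ in
/-- **The core of the gluing.** -/
theorem coord_mem_of_noTriv (B : Module.Basis (Fin 2) T V) {n : ℕ}
    (hn : maximalIdeal T ^ n ≤ 𝔞)
    (hm : ∀ τ ∈ Iner, ∀ v : V, B.repr (r τ v - v) 1 ∈ maximalIdeal T)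
    (hL : B 0 ∈ inertiaModule r Iner)
    (hNT : NoTriv (Iner : Set G) actQ (inertiaSpan (Iner : Set G) actQ)) :
    ∀ τ ∈ Iner, ∀ v : V, B.repr (r τ v - v) 1 ∈ 𝔞 := by
  classical
  set U := inertiaModule r Iner with hU
  set ψ : V →ₗ[T] T := B.coord 1 with hψ
  have hψ_apply : ∀ x, ψ x = B.repr x 1 := fun x => rfl
  -- the ideal of second coordinates
  set J : Ideal T := U.map ψ with hJdef
  suffices hJ : J ≤ 𝔞 by
    intro τ hτ v
    exact hJ ⟨r τ v - v, Submodule.subset_span ⟨τ, hτ, v, rfl⟩, rfl⟩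
  by_contra hJ
  obtain ⟨j, hjJ, hj𝔞, hjm⟩ := exists_socle hn hJ
  obtain ⟨u, huU, huj⟩ := hjJ
  -- `j • B 1 ∈ U`
  have hu₀U : j • B 1 ∈ U := by
    have h1 : j • B 1 = u - B.repr u 0 • B 0 := by
      have h2 := eq_coord_sum B u
      have h3 : B.repr u 1 = j := huj
      rw [h3] at h2
      rw [eq_sub_iff_add_eq, add_comm]
      exact h2.symm
    rw [h1]
    exact U.sub_mem huU (U.smul_mem _ hL)
  -- the two submodules
  set Bt : Submodule T V := U ⊓ socleModule V 𝔞 with hBt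
  set At : Submodule T V := Bt ⊓ (Submodule.span T {B 0} ⊔ 𝔞 • (⊤ : Submodule T V)) with hAt
  have hψA : ∀ x ∈ Submodule.span T {B 0} ⊔ 𝔞 • (⊤ : Submodule T V), ψ x ∈ 𝔞 := by
    intro x hx
    obtain ⟨y, hy, z, hz, rfl⟩ := Submodule.mem_sup.mp hx
    obtain ⟨c, rfl⟩ := Submodule.mem_span_singleton.mp hy
    rw [map_add, map_smul, hψ_apply, hψ_apply, B.repr_self, Finsupp.single_apply]
    simp only [Fin.isValue, zero_ne_one, if_false, smul_zero, zero_add]
    exact repr_mem_of_mem_smul_top B 𝔞 hz 1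
  have hu₀Bt : j • B 1 ∈ Bt := by
    refine ⟨hu₀U, fun c hc => ?_⟩
    rw [smul_smul]
    exact Submodule.smul_mem_smul (hjm c hc) Submodule.mem_top
  -- the action of inertia on `Bt`
  have hτBt : ∀ τ ∈ Iner, ∀ x ∈ Bt, r τ x - x ∈ At := by
    intro τ hτ x hx
    have hxU : r τ x - x ∈ U := Submodule.subset_span ⟨τ, hτ, x, rfl⟩
    have hxS : r τ x - x ∈ socleModule V 𝔞 := by
      intro c hc
      have h1 : c • (r τ x - x) = r τ (c • x) - c • x := by rw [smul_sub, map_smul]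
      rw [h1]
      exact Submodule.sub_mem _ (map_mem_smul_top (r τ) 𝔞 (hx.2 c hc)) (hx.2 c hc)
    refine ⟨⟨hxU, hxS⟩, ?_⟩
    -- the second coordinate lies in `𝔞`
    have hc0 : ∀ c ∈ maximalIdeal T, c * B.repr x 0 ∈ 𝔞 := by
      intro c hc
      have := repr_mem_of_mem_smul_top B 𝔞 (hx.2 c hc) 0
      rwa [map_smul, Finsupp.smul_apply, smul_eq_mul] at this
    have hc1 : ∀ c ∈ maximalIdeal T, c * B.repr x 1 ∈ 𝔞 := by
      intro c hc
      have := repr_mem_of_mem_smul_top B 𝔞 (hx.2 c hc) 1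
      rwa [map_smul, Finsupp.smul_apply, smul_eq_mul] at this
    have hexp : r τ x - x = B.repr x 0 • (r τ (B 0) - B 0) + B.repr x 1 • (r τ (B 1) - B 1) := by
      conv_lhs => rw [eq_coord_sum B x]
      rw [map_add, map_smul, map_smul]
      module
    have hψx : ψ (r τ x - x) ∈ 𝔞 := by
      rw [hexp, map_add, map_smul, map_smul, smul_eq_mul, smul_eq_mul]
      refine 𝔞.add_mem ?_ ?_
      · rw [mul_comm]; exact hc0 _ (hm τ hτ (B 0))
      · rw [mul_comm]; exact hc1 _ (hm τ hτ (B 1))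
    have hdec := eq_coord_sum B (r τ x - x)
    rw [hdec]
    refine Submodule.add_mem _ (Submodule.mem_sup_left ?_) (Submodule.mem_sup_right ?_)
    · exact Submodule.smul_mem _ _ (Submodule.mem_span_singleton_self _)
    · exact Submodule.smul_mem_smul hψx Submodule.mem_top
  -- apply `NoTriv`
  have hle := hNT ((At.map (Submodule.mkQ (𝔞 • (⊤ : Submodule T V)))).toAddSubgroup)
    ((Bt.map (Submodule.mkQ (𝔞 • (⊤ : Submodule T V)))).toAddSubgroup)
    (fun y hy => Submodule.map_mono (inf_le_left : At ≤ Bt) hy)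
    (by
      rintro _ ⟨x, hx, rfl⟩
      exact mk_mem_inertiaSpan r Iner 𝔞 actQ hQ hx.1)
    (by
      rintro τ hτ _ ⟨x, hx, rfl⟩
      refine ⟨r τ x - x, hτBt τ hτ x hx, ?_⟩
      rw [Submodule.mkQ_apply, Submodule.mkQ_apply, Submodule.Quotient.mk_sub, hQ])
  obtain ⟨x, hxA, hxeq⟩ := hle ⟨j • B 1, hu₀Bt, rfl⟩
  have hdiff : x - j • B 1 ∈ 𝔞 • (⊤ : Submodule T V) := by
    rw [Submodule.mkQ_apply, Submodule.mkQ_apply] at hxeq
    exact (Submodule.Quotient.eq _).mp hxeq
  have h1 : ψ x ∈ 𝔞 := hψA x hxA.2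
  have h2 : ψ (x - j • B 1) ∈ 𝔞 := repr_mem_of_mem_smul_top B 𝔞 hdiff 1
  have h3 : ψ (j • B 1) = j := by
    rw [map_smul, hψ_apply, B.repr_self, Finsupp.single_apply]
    simp
  apply hj𝔞
  have : j = ψ x - ψ (x - j • B 1) := by
    rw [map_sub, h3]; ring
  rw [this]
  exact 𝔞.sub_mem h1 h2

end Core

end Fermat.Agent.S33x.Consumer.GlueCore
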