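import Mathlib
import Fermat.Agent.S33x.Consumer.GlueCore

/-!
# S33 consumer (helper95), part 3b: the finite level gluing

`T` a noetherian local ring, Henselian at its maximal ideal, `V` a `T`-module with a basis
`B0 : Fin 2 → V`, `r : G →* End_T V`, `Iner ≤ Dec ≤ G` with `Iner` normalised by `Dec`.  Assume

* (residual ordinarity) the second `B0`-coordinate of every `r τ v - v` (`τ ∈ Iner`) lies in the
  maximal ideal;
* some `s ∈ Iner` has `det (r s) - 1` a unit;
* for every `n` the group `V / m ^ n V` satisfies `OrdPts Iner`.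

Then there is a basis `B` of `V` such that the line `L = T ∙ B 0` is stable under `Dec` and contains
all `r τ v - v`, `τ ∈ Iner` (`exists_line_of_levels`).
-/

set_option autoImplicit false
set_option linter.unusedSectionVars false

namespace Fermat.Agent.S33x.Consumer.Glue

open IsLocalRing Polynomial Fermat.Agent.S33x.Consumer.Ord Fermat.Agent.S33x.Consumer.GlueCore

section Hensel

variable {T : Type*} [CommRing T] [IsLocalRing T] [HenselianRing T (maximalIdeal T)]

/-- **The two roots of the characteristic polynomial.** -/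
theorem exists_roots (t δ : T) (h1 : t - δ - 1 ∈ maximalIdeal T) (h2 : IsUnit (δ - 1)) :
    ∃ a b : T, a + b = t ∧ a * b = δ ∧ b - 1 ∈ maximalIdeal T ∧ IsUnit (a - 1) ∧
      IsUnit (a - b) := by
  set f : T[X] := X ^ 2 + (C (-t) * X + C δ) with hf
  have hmonic : f.Monic :=
    monic_X_pow_add (lt_of_le_of_lt degree_linear_le (by norm_num))
  have heval : ∀ x : T, f.eval x = x ^ 2 - t * x + δ := by
    intro x
    simp only [hf, eval_add, eval_pow, eval_X, eval_mul, eval_C]
    ring
  have hder : f.derivative.eval 1 = 2 - t := by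
    simp only [hf, derivative_add, derivative_X_pow, derivative_mul, derivative_C, derivative_X,
      eval_add, eval_mul, eval_C, eval_X, eval_pow, zero_mul, mul_one, zero_add, add_zero,
      Nat.cast_ofNat]
    norm_num
    ring
  have hu : IsUnit (2 - t) := by
    have : 2 - t = -(δ - 1) + -(t - δ - 1) := by ring
    rw [this]
    exact isUnit_add_of_mem h2.neg ((maximalIdeal T).neg_mem h1)
  obtain ⟨b, hb, hb1⟩ := HenselianRing.is_henselian f hmonic 1
    (by
      rw [heval]
      have : (1 : T) ^ 2 - t * 1 + δ = -(t - δ - 1) := by ring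
      rw [this]
      exact (maximalIdeal T).neg_mem h1)
    (by rw [hder]; exact hu.map _)
  have hroot : b ^ 2 - t * b + δ = 0 := by
    have := hb
    rw [IsRoot.def, heval] at this
    exact this
  refine ⟨t - b, b, by ring, ?_, hb1, ?_, ?_⟩
  · have : (t - b) * b = δ - (b ^ 2 - t * b + δ) := by ring
    rw [this, hroot, sub_zero]
  · have : t - b - 1 = (δ - 1) + ((t - δ - 1) + -(b - 1)) := by ring
    rw [this]
    exact isUnit_add_of_mem h2 ((maximalIdeal T).add_mem h1 ((maximalIdeal T).neg_mem hb1))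
  · have : t - b - b = (δ - 1) + ((t - δ - 1) + (-(b - 1) + -(b - 1))) := by ring
    rw [this]
    exact isUnit_add_of_mem h2 ((maximalIdeal T).add_mem h1
      ((maximalIdeal T).add_mem ((maximalIdeal T).neg_mem hb1) ((maximalIdeal T).neg_mem hb1)))

end Hensel

section Basis

variable {T : Type*} [CommRing T] {V : Type*} [AddCommGroup V] [Module T V]

/-- change of basis by an invertible `2 × 2` matrix. -/
theorem exists_basis_of_coords (B0 : Module.Basis (Fin 2) T V) (p q r' s' : T)
    (hdet : IsUnit (p * s' - q * r')) :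
    ∃ B : Module.Basis (Fin 2) T V, B 0 = p • B0 0 + r' • B0 1 ∧ B 1 = q • B0 0 + s' • B0 1 := by
  classical
  set g : V →ₗ[T] V := B0.constr T ![p • B0 0 + r' • B0 1, q • B0 0 + s' • B0 1] with hg
  have hg0 : g (B0 0) = p • B0 0 + r' • B0 1 := by rw [hg, B0.constr_basis]; rfl
  have hg1 : g (B0 1) = q • B0 0 + s' • B0 1 := by rw [hg, B0.constr_basis]; rfl
  have hM : LinearMap.toMatrix B0 B0 g = !![p, q; r', s'] := by
    ext i j
    rw [LinearMap.toMatrix_apply]
    fin_cases i <;> fin_cases j <;>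
      simp [hg0, hg1, Module.Basis.repr_self]
  have h : IsUnit (LinearMap.toMatrix B0 B0 g).det := by
    rw [hM, Matrix.det_fin_two_of]
    exact hdet
  refine ⟨B0.map (LinearEquiv.ofIsUnitDet h), ?_, ?_⟩
  · rw [Module.Basis.map_apply, LinearEquiv.ofIsUnitDet_apply, hg0]
  · rw [Module.Basis.map_apply, LinearEquiv.ofIsUnitDet_apply, hg1]

/-- trace and determinant in coordinates. -/
theorem trace_det_coords (B0 : Module.Basis (Fin 2) T V) (f : Module.End T V) :
    LinearMap.trace T V f = B0.repr (f (B0 0)) 0 + B0.repr (f (B0 1)) 1 ∧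
    LinearMap.det f = B0.repr (f (B0 0)) 0 * B0.repr (f (B0 1)) 1 -
      B0.repr (f (B0 1)) 0 * B0.repr (f (B0 0)) 1 := by
  constructor
  · rw [LinearMap.trace_eq_matrix_trace T B0 f, Matrix.trace_fin_two, LinearMap.toMatrix_apply,
      LinearMap.toMatrix_apply]
  · rw [← LinearMap.det_toMatrix B0 f, Matrix.det_fin_two, LinearMap.toMatrix_apply,
      LinearMap.toMatrix_apply, LinearMap.toMatrix_apply, LinearMap.toMatrix_apply]

/-- Cayley-Hamilton in rank two. -/
theorem cayley_two (B0 : Module.Basis (Fin 2) T V) (f : Module.End T V) (x : V) :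
    f (f x) = LinearMap.trace T V f • f x - LinearMap.det f • x := by
  classical
  set M := LinearMap.toMatrix B0 B0 f with hM
  have h1 : M * M = M.trace • M - M.det • (1 : Matrix (Fin 2) (Fin 2) T) := by
    ext i j
    fin_cases i <;> fin_cases j <;>
      simp [Matrix.mul_apply, Fin.sum_univ_two, Matrix.trace_fin_two, Matrix.det_fin_two] <;> ring
  have h2 : f * f = LinearMap.trace T V f • f - LinearMap.det f • (1 : Module.End T V) := by
    apply (LinearMap.toMatrixAlgEquiv B0).injective
    rw [map_mul, map_sub, map_smul, map_smul, map_one]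
    show M * M = _ • M - _ • 1
    rw [h1, LinearMap.trace_eq_matrix_trace T B0 f, ← LinearMap.det_toMatrix B0 f]
  have h3 := congrArg (fun e : Module.End T V => e x) h2
  simpa using h3

end Basis

section Main

variable {T : Type*} [CommRing T] [IsLocalRing T] [IsNoetherianRing T]
  [HenselianRing T (maximalIdeal T)]
  {V : Type*} [AddCommGroup V] [Module T V] {G : Type*} [Group G]

/-- **The finite level gluing.** -/
theorem exists_line_of_levels (r : G →* Module.End T V) (Dec Iner : Subgroup G)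
    (hnorm : ∀ σ ∈ Dec, ∀ τ ∈ Iner, σ * τ * σ⁻¹ ∈ Iner)
    (B0 : Module.Basis (Fin 2) T V)
    (hres : ∀ τ ∈ Iner, ∀ v : V, B0.repr (r τ v - v) 1 ∈ maximalIdeal T)
    (s : G) (hs : s ∈ Iner) (hdet : IsUnit (LinearMap.det (r s) - 1))
    (actQ : ∀ n : ℕ, G → (V ⧸ ((maximalIdeal T ^ n) • (⊤ : Submodule T V))) →
      (V ⧸ ((maximalIdeal T ^ n) • (⊤ : Submodule T V))))
    (hQ : ∀ n σ v, actQ n σ (Submodule.Quotient.mk v) = Submodule.Quotient.mk (r σ v))
    (hOrd : ∀ n : ℕ, OrdPts (Iner : Set G) (actQ n)) :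
    ∃ L : Submodule T V, (∃ b : Module.Basis (Fin 2) T V, L = Submodule.span T {b 0}) ∧
      (∀ σ ∈ Dec, ∀ v ∈ L, r σ v ∈ L) ∧ (∀ τ ∈ Iner, ∀ v : V, r τ v - v ∈ L) := by
  classical
  set f : Module.End T V := r s with hf
  -- the matrix of `f`
  set α := B0.repr (f (B0 0)) 0 with hα
  set γ := B0.repr (f (B0 0)) 1 with hγ
  set β := B0.repr (f (B0 1)) 0 with hβ
  set η := B0.repr (f (B0 1)) 1 with hη
  obtain ⟨htr, hdt⟩ := trace_det_coords B0 f
  rw [← hα, ← hη] at htr
  rw [← hα, ← hη, ← hβ, ← hγ] at hdt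
  set t := LinearMap.trace T V f with ht
  set δ := LinearMap.det f with hδ
  have hγm : γ ∈ maximalIdeal T := by
    have := hres s hs (B0 0)
    rw [map_sub, Finsupp.sub_apply, B0.repr_self, Finsupp.single_apply] at this
    simpa using this
  have hηm : η - 1 ∈ maximalIdeal T := by
    have := hres s hs (B0 1)
    rw [map_sub, Finsupp.sub_apply, B0.repr_self, Finsupp.single_apply] at this
    simpa using this
  have hfB0 : f (B0 0) = α • B0 0 + γ • B0 1 := eq_coord_sum B0 (f (B0 0))
  have hfB1 : f (B0 1) = β • B0 0 + η • B0 1 := eq_coord_sum B0 (f (B0 1))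
  -- `α - 1` is a unit
  have hα1 : IsUnit (α - 1) := by
    have : α - 1 = (δ - 1) + (-(α * (η - 1)) + β * γ) := by rw [hdt]; ring
    rw [this]
    exact isUnit_add_of_mem hdet ((maximalIdeal T).add_mem
      ((maximalIdeal T).neg_mem ((maximalIdeal T).mul_mem_left _ hηm))
      ((maximalIdeal T).mul_mem_left _ hγm))
  have ht1 : t - δ - 1 ∈ maximalIdeal T := by
    have : t - δ - 1 = -((α - 1) * (η - 1)) + β * γ := by rw [htr, hdt]; ring
    rw [this]
    exact (maximalIdeal T).add_mem
      ((maximalIdeal T).neg_mem ((maximalIdeal T).mul_mem_left _ hηm))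
      ((maximalIdeal T).mul_mem_left _ hγm)
  obtain ⟨a, b, hab, habδ, hb1, ha1, hab'⟩ := exists_roots t δ ht1 hdet
  -- the eigenbasis
  have hdetP : IsUnit ((α - b) * (η - a) - β * γ) := by
    have h1 : IsUnit (α - b) := by
      have : α - b = (α - 1) + -(b - 1) := by ring
      rw [this]
      exact isUnit_add_of_mem hα1 ((maximalIdeal T).neg_mem hb1)
    have h2 : IsUnit (η - a) := by
      have : η - a = -(a - 1) + (η - 1) := by ring
      rw [this]
      exact isUnit_add_of_mem ha1.neg hηm
    rw [sub_eq_add_neg]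
    exact isUnit_add_of_mem (h1.mul h2)
      ((maximalIdeal T).neg_mem ((maximalIdeal T).mul_mem_left _ hγm))
  obtain ⟨B, hB0, hB1⟩ := exists_basis_of_coords B0 (α - b) β γ (η - a) hdetP
  have hv1 : B 0 = f (B0 0) - b • B0 0 := by rw [hB0, hfB0]; module
  have hv2 : B 1 = f (B0 1) - a • B0 1 := by rw [hB1, hfB1]; module
  have hCH := cayley_two B0 f
  have hfv1 : f (B 0) = a • B 0 := by
    rw [hv1, map_sub, map_smul, hCH, ← ht, ← hδ, ← hab, ← habδ]
    module
  have hfv2 : f (B 1) = b • B 1 := by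
    rw [hv2, map_sub, map_smul, hCH, ← ht, ← hδ, ← hab, ← habδ]
    module
  -- the residual condition in the new basis
  have hresB : ∀ τ ∈ Iner, ∀ v : V, B.repr (r τ v - v) 1 ∈ maximalIdeal T := by
    intro τ hτ v
    set x := r τ v - v with hx
    have h1 : B0.repr x 1 = B.repr x 0 * γ + B.repr x 1 * (η - a) := by
      conv_lhs => rw [eq_coord_sum B x, hB0, hB1]
      simp only [map_add, map_smul, Finsupp.add_apply, Finsupp.smul_apply, smul_eq_mul,
        Module.Basis.repr_self, Finsupp.single_apply]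
      simp
    have h2 : B.repr x 1 * (η - a) ∈ maximalIdeal T := by
      have h3 := hres τ hτ v
      rw [← hx, h1] at h3
      have := (maximalIdeal T).sub_mem h3 ((maximalIdeal T).mul_mem_left (B.repr x 0) hγm)
      rwa [add_sub_cancel_left] at this
    have h4 : IsUnit (η - a) := by
      have : η - a = -(a - 1) + (η - 1) := by ring
      rw [this]
      exact isUnit_add_of_mem ha1.neg hηm
    exact mem_of_mul_mem_of_isUnit h4 h2
  -- `B 0` lies in the inertia module
  obtain ⟨c, hc⟩ := ha1.exists_left_inv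
  have hv1U : B 0 = r s (c • B 0) - c • B 0 := by
    rw [map_smul, ← hf, hfv1, smul_smul, ← sub_smul, ← mul_sub_one, hc, one_smul]
  have hL : B 0 ∈ inertiaModule r Iner := Submodule.subset_span ⟨s, hs, c • B 0, hv1U⟩
  -- the key vanishing
  have hkey : ∀ τ ∈ Iner, ∀ v : V, B.repr (r τ v - v) 1 = 0 := by
    intro τ hτ v
    have hall : ∀ n : ℕ, B.repr (r τ v - v) 1 ∈ maximalIdeal T ^ n := fun n =>
      coord_mem_of_noTriv r Iner (maximalIdeal T ^ n) (actQ n) (hQ n) B le_rfl hresB hL
        (hOrd n).noTriv_inertiaSpan τ hτ v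
    have hbot : (⨅ n : ℕ, maximalIdeal T ^ n) = ⊥ :=
      Ideal.iInf_pow_eq_bot_of_isLocalRing _ (maximalIdeal.isMaximal T).ne_top
    have : B.repr (r τ v - v) 1 ∈ (⨅ n : ℕ, maximalIdeal T ^ n) := by
      rw [Ideal.mem_iInf]
      exact hall
    rw [hbot] at this
    exact this
  have hI : ∀ τ ∈ Iner, ∀ v : V, r τ v - v ∈ Submodule.span T {B 0} := by
    intro τ hτ v
    rw [eq_coord_sum B (r τ v - v), hkey τ hτ v, zero_smul, add_zero]
    exact Submodule.smul_mem _ _ (Submodule.mem_span_singleton_self _)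
  refine ⟨Submodule.span T {B 0}, ⟨B, rfl⟩, ?_, hI⟩
  intro σ hσ v hv
  obtain ⟨d, rfl⟩ := Submodule.mem_span_singleton.mp hv
  rw [map_smul]
  refine Submodule.smul_mem _ _ ?_
  have h1 : r σ (B 0) = r (σ * s * σ⁻¹) (r σ (c • B 0)) - r σ (c • B 0) := by
    conv_lhs => rw [hv1U, map_sub]
    congr 1
    rw [map_mul, map_mul, Module.End.mul_apply, Module.End.mul_apply, ← Module.End.mul_apply (r σ⁻¹),
      ← map_mul, inv_mul_cancel, map_one, Module.End.one_apply]
  rw [h1]
  exact hI _ (hnorm σ hσ s hs) _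

end Main

end Fermat.Agent.S33x.Consumer.Glue
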