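import Mathlib
import Fermat.Agent.S33x.Consumer.OrdPts
import Fermat.Agent.S19x.C.LevelBridge
import Fermat.Agent.S19x.C.S32Bridge
import Fermat.Agent.S19x.C.Cyclo
import Fermat.Agent.S19x.C.Nakayama
import Fermat.Agent.Gateway.S31.Approx

/-!
# S33 consumer (helper95), part 2: the block C machine for the predicate `OrdPts`

The bridge of P-S19 block C (helper55: `AnnSubQuot`, `LevelBridge`, `S32Bridge`) uses of the
predicate `IsFFPoints` only that it passes to finite powers and to equivariant subquotients.  Here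
the same bridge is run for `OrdPts Iner` (part 1):

* `ordPts_of_annihilator_le` : from annihilators to subquotients;
* `annihilator_le_level` : the annihilator comparison at one level (the proof inside
  `LevelBridge.isFFPoints_level`, as a statement of its own);
* `ordPts_level`, `ordPts_quotient_of_torsion` : if all torsion levels `D.M m` satisfy `OrdPts Iner`,
  so does `V / I V` for every ideal `I` of finite index of `T`.
-/

set_option autoImplicit false
set_option linter.unusedSectionVars false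
set_option linter.style.haveILetI false

noncomputable section

namespace Fermat.Agent.S33x.Consumer.OrdLevel

open Fermat.Agent.S33x.Consumer.Ord Fermat.Agent.S19x.C.AnnCore Fermat.Agent.S19x.C.AnnCompare
  Fermat.Agent.S19x.C.HeckeMod Fermat.Agent.Gateway.S31Red Fermat.Agent.S19x.C.LevelBridge

local notation "Γℚ" => (AlgebraicClosure ℚ ≃ₐ[ℚ] AlgebraicClosure ℚ)

section Ann

variable {TT : Type} [CommRing TT] {W Z : Type} [AddCommGroup W] [AddCommGroup Z]
  [Module TT W] [Module TT Z] [Finite W] [Finite Z]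

/-- **From annihilators to subquotients**, for `OrdPts`. -/
theorem ordPts_of_annihilator_le (Iner : Set Γℚ)
    (galW : Γℚ →* Module.End TT W) (galZ : Γℚ →* Module.End TT Z) (s : TT)
    (hann : ∀ z : Γℚ →₀ TT, (∀ w : W, act galW z (s • w) = 0) → act galZ z = 0)
    (hW : OrdPts Iner (fun σ w => galW σ w)) :
    OrdPts Iner (fun σ v => galZ σ v) := by
  classical
  have : Fintype Z := Fintype.ofFinite Z
  have hX : OrdPts Iner (fun σ (f : Z × W → W) i => galW σ (f i)) :=
    hW.pi (fun σ => map_zero (galW σ))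
  let A : Type := Z → (Γℚ →₀ TT)
  let actA : Γℚ → A → A := fun σ x v => lmul σ (x v)
  let Ψ : A →+ (Z × W → W) :=
    { toFun := fun x i => act galW (x i.1) (s • i.2)
      map_zero' := by
        funext i
        show act galW ((0 : A) i.1) (s • i.2) = 0
        rw [Pi.zero_apply, map_zero]; rfl
      map_add' := fun x x' => by
        funext i
        show act galW ((x + x') i.1) (s • i.2) =
          act galW (x i.1) (s • i.2) + act galW (x' i.1) (s • i.2)
        rw [Pi.add_apply, map_add]; rfl }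
  let Φ : A →+ Z :=
    { toFun := fun x => ∑ v : Z, act galZ (x v) v
      map_zero' := by
        refine Finset.sum_eq_zero fun v _ => ?_
        show act galZ ((0 : A) v) v = 0
        rw [Pi.zero_apply, map_zero]; rfl
      map_add' := fun x x' => by
        rw [← Finset.sum_add_distrib]
        refine Finset.sum_congr rfl fun v _ => ?_
        show act galZ ((x + x') v) v = act galZ (x v) v + act galZ (x' v) v
        rw [Pi.add_apply, map_add]; rfl }
  refine OrdPts.of_subquotient (actA := actA) hX Ψ Φ ?_ ?_ ?_ ?_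
  · intro σ x
    funext i
    show act galW (lmul σ (x i.1)) (s • i.2) = galW σ (act galW (x i.1) (s • i.2))
    rw [act_lmul]; rfl
  · intro σ x
    show ∑ v : Z, act galZ (lmul σ (x v)) v = galZ σ (∑ v : Z, act galZ (x v) v)
    rw [map_sum]
    refine Finset.sum_congr rfl fun v _ => ?_
    rw [act_lmul]; rfl
  · intro v₀
    refine ⟨Pi.single v₀ (Finsupp.single 1 1), ?_⟩
    show ∑ v : Z, act galZ ((Pi.single v₀ (Finsupp.single 1 1) : A) v) v = v₀
    rw [Finset.sum_eq_single v₀]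
    · rw [Pi.single_eq_same, act_single, one_smul, map_one]; rfl
    · intro v _ hv
      rw [Pi.single_eq_of_ne hv, map_zero]; rfl
    · intro h; exact absurd (Finset.mem_univ _) h
  · intro x hx
    show ∑ v : Z, act galZ (x v) v = 0
    refine Finset.sum_eq_zero fun v _ => ?_
    have h1 : ∀ w : W, act galW (x v) (s • w) = 0 := fun w => congrFun hx (v, w)
    rw [hann (x v) h1]; rfl

end Ann

section Main

variable {p N : ℕ} [NeZero N] {S : Finset ℕ}
  {𝒪 : Type} [CommRing 𝒪] [IsDomain 𝒪] [IsDiscreteValuationRing 𝒪]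
  [IsAdicComplete (IsLocalRing.maximalIdeal 𝒪) 𝒪]
  {θ : CuspForm.heckeAlgebra N 2 (↑S : Set ℕ) →+* IsLocalRing.ResidueField 𝒪}
  {T : Type} [CommRing T] [IsLocalRing T] [IsNoetherianRing T]
  [IsAdicComplete (IsLocalRing.maximalIdeal T) T] [Algebra 𝒪 T] [IsLocalHom (algebraMap 𝒪 T)]
  [Module.Finite 𝒪 T] [Module.Free 𝒪 T]

set_option maxHeartbeats 1000000 in
/-- **The annihilator comparison at one level** (the core of `LevelBridge.isFFPoints_level`):
there is a Hecke operator `s` such that every formal sum killing `s • D.M m` kills `V / I V`. -/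
theorem annihilator_le_level
    (H : CuspForm.HeckeGaloisRepDatum N (↑S : Set ℕ) 𝒪 θ T) (D : TorsionHeckeData p N S) (m : ℕ)
    (I : Ideal T) (hI : I ≤ IsLocalRing.maximalIdeal T)
    (d : Γℚ →* Module.End (CuspForm.heckeAlgebra N 2 (↑S : Set ℕ)) (HM D m))
    (hd : ∀ (g : Γℚ) (f : Module.End (CuspForm.heckeAlgebra N 2 (↑S : Set ℕ)) (HM D m)),
      Commute (d g) f)
    (happ : ∀ g : Γℚ, ∃ y : CuspForm.heckeAlgebra N 2 (↑S : Set ℕ),
      LinearMap.trace T H.ρ.V (H.ρ.ρ g) - H.π y ∈ I ∧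
      algebraMap (CuspForm.heckeAlgebra N 2 (↑S : Set ℕ))
        (Module.End (CuspForm.heckeAlgebra N 2 (↑S : Set ℕ)) (HM D m)) y =
          galHM D m g + d g * galHM D m g⁻¹)
    (hfaith : ∀ t : CuspForm.heckeAlgebra N 2 (↑S : Set ℕ), D.hecke m t = 0 → H.π t ∈ I)
    (hproj : ∀ nn : Ideal (CuspForm.heckeAlgebra N 2 (↑S : Set ℕ)),
      ∃ (s : CuspForm.heckeAlgebra N 2 (↑S : Set ℕ)) (k : ℕ), s - 1 ∈ nn ∧
        ∀ t ∈ nn ^ k, ∀ w : HM D m, (t * s) • w = 0)
    (hbez : ∀ (δ : CuspForm.heckeAlgebra N 2 (↑S : Set ℕ)), resChar H δ ≠ 0 → ∀ k : ℕ,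
      ∃ a b : CuspForm.heckeAlgebra N 2 (↑S : Set ℕ),
        a * δ + b = 1 ∧ b ∈ (RingHom.ker (resChar H)) ^ k) :
    ∃ s : CuspForm.heckeAlgebra N 2 (↑S : Set ℕ),
      ∀ z : Γℚ →₀ CuspForm.heckeAlgebra N 2 (↑S : Set ℕ),
        (∀ w : HM D m, act (galHM D m) z (s • w) = 0) → act (galZ H I) z = 0 := by
  classical
  -- the projector
  obtain ⟨s, k, hs1, hsk⟩ := hproj (RingHom.ker (resChar H))
  have hπs : IsUnit (H.π s) := by
    have h1 : H.π (s - 1) ∈ IsLocalRing.maximalIdeal T := by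
      have := RingHom.mem_ker.mp hs1
      rwa [resChar, RingHom.comp_apply, IsLocalRing.residue_eq_zero_iff] at this
    have h2 : H.π s = 1 + H.π (s - 1) := by rw [map_sub, map_one]; ring
    rw [h2]
    by_contra hcon
    have h3 : (1 : T) + H.π (s - 1) ∈ IsLocalRing.maximalIdeal T :=
      (IsLocalRing.mem_maximalIdeal _).mpr hcon
    have h4 : (1 : T) ∈ IsLocalRing.maximalIdeal T := by
      have := Ideal.sub_mem _ h3 h1
      rwa [add_sub_cancel_right] at this
    exact (Ideal.ne_top_iff_one _).mp (IsLocalRing.maximalIdeal.isMaximal T).ne_top h4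
  -- the approximating Hecke operators
  choose y hytr hyrel using happ
  -- the Gram data
  obtain ⟨g, hgunit, -, hgmem⟩ := Fermat.Agent.S19x.C.Gram.exists_gram H.ρ H.residual_absIrr
  set δ : CuspForm.heckeAlgebra N 2 (↑S : Set ℕ) :=
    Matrix.det (Matrix.of fun i j => y (g i * g j)) with hδ
  have hδres : resChar H δ ≠ 0 := by
    rw [resChar, RingHom.comp_apply, Ne, IsLocalRing.residue_eq_zero_iff]
    have hcong : Matrix.det (Matrix.of fun i j : Fin 4 =>
        LinearMap.trace T H.ρ.V (H.ρ.ρ (g i * g j))) - H.π δ ∈ I := by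
      have hq : (Ideal.Quotient.mk I) (Matrix.det (Matrix.of fun i j : Fin 4 =>
          LinearMap.trace T H.ρ.V (H.ρ.ρ (g i * g j)))) =
          (Ideal.Quotient.mk I) (H.π δ) := by
        rw [hδ, RingHom.map_det, RingHom.map_det, RingHom.map_det]
        congr 1
        ext i j
        simp only [RingHom.mapMatrix_apply, Matrix.map_apply, Matrix.of_apply]
        exact Ideal.Quotient.eq.mpr (hytr (g i * g j))
      exact Ideal.Quotient.eq.mp hq
    intro hmem
    have : Matrix.det (Matrix.of fun i j : Fin 4 =>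
        LinearMap.trace T H.ρ.V (H.ρ.ρ (g i * g j))) ∈ IsLocalRing.maximalIdeal T := by
      have := Ideal.add_mem _ (hI hcong) hmem
      rwa [sub_add_cancel] at this
    exact (IsLocalRing.mem_maximalIdeal _).mp this hgunit
  obtain ⟨a, b, hab, hbk⟩ := hbez δ hδres k
  refine ⟨s, fun z hz => ?_⟩
  have htr : ∀ h : Γℚ, (z.sum fun k t => H.π t * LinearMap.trace T H.ρ.V (H.ρ.ρ (k * h))) ∈ I := by
    intro h
    refine sum_trace_mem (M := HM D m) hd hyrel H.π I
      (fun g => LinearMap.trace T H.ρ.V (H.ρ.ρ g)) hytr g a b s hab ?_ ?_ z hz h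
    · intro w
      exact hsk b hbk w
    · intro t ht
      have h0 : D.hecke m (s * t) = 0 := by
        ext w
        exact ht w
      have h1 := hfaith _ h0
      rw [map_mul] at h1
      obtain ⟨u, hu⟩ := hπs
      have : H.π t = ↑u⁻¹ * (H.π s * H.π t) := by
        rw [← hu, ← mul_assoc, Units.inv_mul, one_mul]
      rw [this]
      exact Ideal.mul_mem_left _ _ h1
  have hmem : ∀ v : H.ρ.V, rhoSum H.ρ H.π z v ∈ I • (⊤ : Submodule T H.ρ.V) := by
    refine hgmem I (rhoSum H.ρ H.π z) fun i => ?_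
    rw [trace_rhoSum_mul]
    exact htr (g i)
  ext v
  obtain ⟨v, rfl⟩ := mkZ_surjective H I v
  rw [act_galZ_mkZ, LinearMap.zero_apply]
  exact (mkZ_eq_zero H I).mpr (hmem v)

/-- **One level of the bridge for `OrdPts`.** -/
theorem ordPts_level (Iner : Set Γℚ)
    (H : CuspForm.HeckeGaloisRepDatum N (↑S : Set ℕ) 𝒪 θ T) (D : TorsionHeckeData p N S) (m : ℕ)
    (I : Ideal T) (hI : I ≤ IsLocalRing.maximalIdeal T) [Finite (T ⧸ I)] [Finite (D.M m)]
    (hOrd : OrdPts Iner (fun σ (x : D.M m) => D.gal m σ x))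
    (d : Γℚ →* Module.End (CuspForm.heckeAlgebra N 2 (↑S : Set ℕ)) (HM D m))
    (hd : ∀ (g : Γℚ) (f : Module.End (CuspForm.heckeAlgebra N 2 (↑S : Set ℕ)) (HM D m)),
      Commute (d g) f)
    (happ : ∀ g : Γℚ, ∃ y : CuspForm.heckeAlgebra N 2 (↑S : Set ℕ),
      LinearMap.trace T H.ρ.V (H.ρ.ρ g) - H.π y ∈ I ∧
      algebraMap (CuspForm.heckeAlgebra N 2 (↑S : Set ℕ))
        (Module.End (CuspForm.heckeAlgebra N 2 (↑S : Set ℕ)) (HM D m)) y =
          galHM D m g + d g * galHM D m g⁻¹)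
    (hfaith : ∀ t : CuspForm.heckeAlgebra N 2 (↑S : Set ℕ), D.hecke m t = 0 → H.π t ∈ I)
    (hproj : ∀ nn : Ideal (CuspForm.heckeAlgebra N 2 (↑S : Set ℕ)),
      ∃ (s : CuspForm.heckeAlgebra N 2 (↑S : Set ℕ)) (k : ℕ), s - 1 ∈ nn ∧
        ∀ t ∈ nn ^ k, ∀ w : HM D m, (t * s) • w = 0)
    (hbez : ∀ (δ : CuspForm.heckeAlgebra N 2 (↑S : Set ℕ)), resChar H δ ≠ 0 → ∀ k : ℕ,
      ∃ a b : CuspForm.heckeAlgebra N 2 (↑S : Set ℕ),
        a * δ + b = 1 ∧ b ∈ (RingHom.ker (resChar H)) ^ k) :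
    OrdPts Iner (fun σ (v : H.ρ.V ⧸ (I • (⊤ : Submodule T H.ρ.V))) => H.ρ.levelAction I σ v) := by
  have hfinW : Finite (HM D m) := ‹Finite (D.M m)›
  have hfinZ : Finite (ZM H I) := finite_ZM H I
  obtain ⟨s, hs⟩ := annihilator_le_level H D m I hI d hd happ hfaith hproj hbez
  exact ordPts_of_annihilator_le (W := HM D m) (Z := ZM H I) Iner (galHM D m) (galZ H I) s hs hOrd

/-- **The bridge for `OrdPts`**: if all the torsion levels satisfy `OrdPts Iner`, so does `V / I V`
for every proper ideal `I` of finite index. -/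
theorem ordPts_quotient_of_torsion [Finite (IsLocalRing.ResidueField 𝒪)] (Iner : Set Γℚ)
    (hF : FrobPowerDense) (hp : p.Prime) (hp𝒪 : (p : 𝒪) ∈ IsLocalRing.maximalIdeal 𝒪)
    (hpS : p ∈ S) (hNS : ∀ q : ℕ, q.Prime → q ∣ N → q ∈ S)
    (H : CuspForm.HeckeGaloisRepDatum N (↑S : Set ℕ) 𝒪 θ T) (D : TorsionHeckeData p N S)
    (hfin : ∀ m, Finite (D.M m))
    (hOrd : ∀ m, OrdPts Iner (fun σ (x : D.M m) => D.gal m σ x))
    (I : Ideal T) (hI : I ≤ IsLocalRing.maximalIdeal T) [Finite (T ⧸ I)] :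
    OrdPts Iner (fun σ (v : H.ρ.V ⧸ (I • (⊤ : Submodule T H.ρ.V))) => H.ρ.levelAction I σ v) := by
  classical
  haveI : Fact p.Prime := ⟨hp⟩
  obtain ⟨n, hn⟩ := Fermat.Agent.S19x.C.S32Bridge.exists_pow_maximalIdeal_le I
  obtain ⟨c0, hc0⟩ := D.faithful
  set m := n + c0 with hm
  haveI := hfin m
  haveI : Finite (HM D m) := hfin m
  haveI : Finite (IsLocalRing.ResidueField T) :=
    Fermat.Agent.S19x.C.S32Bridge.finite_residueField H
  have hpT : (p : T) ∈ IsLocalRing.maximalIdeal T := by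
    rw [IsLocalRing.mem_maximalIdeal]
    intro hu
    have h1 : (p : T) = algebraMap 𝒪 T (p : 𝒪) := by rw [map_natCast]
    rw [h1] at hu
    exact (IsLocalRing.mem_maximalIdeal _).mp hp𝒪 (isUnit_of_map_unit (algebraMap 𝒪 T) _ hu)
  refine ordPts_level Iner H D m I hI (hOrd m)
    (Fermat.Agent.S19x.C.Cyclo.cycloOp hp D m)
    (Fermat.Agent.S19x.C.Cyclo.cycloOp_commute hp D m) ?_ ?_
    (fun nn => Fermat.Agent.S19x.C.Nakayama.exists_projector nn)
    (fun δ hδ k => Fermat.Agent.S19x.C.Nakayama.exists_bezout (resChar H) δ hδ k)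
  · intro g
    obtain ⟨y, hy1, hy2⟩ := Fermat.Agent.S19x.C.Cyclo.exists_hecke_eq hp D m hF hpS hNS H g
    exact ⟨y, hn (Ideal.pow_le_pow_right (Nat.le_add_right n c0) hy1), hy2⟩
  · intro t ht
    obtain ⟨t', rfl⟩ := hc0 t n ht
    have h2 : H.π (((p : ℤ) ^ n) • t') = (p : T) ^ n * H.π t' := by
      simp only [zsmul_eq_mul, map_mul, Int.cast_pow, Int.cast_natCast, map_pow, map_natCast]
    rw [h2]
    exact hn (Ideal.mul_mem_right _ _ (Ideal.pow_mem_pow hpT n))

end Main

end Fermat.Agent.S33x.Consumer.OrdLevel
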