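import Mathlib
import Fermat.Agent.S33x.Consumer.OrdLevel
import Fermat.Agent.S33x.Consumer.Glue
import Fermat.Agent.S19x.Alg.Compositum

/-!
# S33 consumer (helper95), part 4: assembly

`isOrdinaryAt_of_ordTorsion` : for a Hecke-Galois datum `H` (level `N`, away from `S`, `p ∈ S`,
primes of `N` in `S`, `p ∈ m_𝒪`, finite residue field) and torsion data `D : TorsionHeckeData p N S`
with finite levels, if for every place `P` over `p`

* `hbasis P` : there is a basis `B0` of `V` such that the second `B0`-coordinate of every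
  `ρ τ v - v` (`τ` in the inertia group of `P`) lies in `m_T` (residual ordinarity),
* `hunit P` : some `s` in the inertia group of `P` has `det ρ(s) - 1` a unit,
* `hOrd P m` : the torsion level `D.M m` satisfies `OrdPts (inertia of P)`,

then `H.ρ.IsOrdinaryAt p`.
-/

set_option autoImplicit false
set_option linter.unusedSectionVars false
set_option linter.style.haveILetI false

noncomputable section

namespace Fermat.Agent.S33x.Consumer.Main

open Fermat.Agent.S33x.Consumer.Ord Fermat.Agent.S33x.Consumer.OrdLevel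
  Fermat.Agent.S33x.Consumer.Glue Fermat.Agent.Gateway.S31Red

local notation "Γℚ" => (AlgebraicClosure ℚ ≃ₐ[ℚ] AlgebraicClosure ℚ)
local notation "Qb" => AlgebraicClosure ℚ

/-- the inertia group is normalised by the decomposition group. -/
theorem conj_mem_inertiaSubgroupIn (P : ValuationSubring Qb) {σ τ : Γℚ}
    (hσ : σ ∈ P.decompositionSubgroup ℚ) (hτ : τ ∈ P.inertiaSubgroupIn ℚ) :
    σ * τ * σ⁻¹ ∈ P.inertiaSubgroupIn ℚ := by
  have h := Fermat.Agent.S19x.Alg.Compositum.conj_mem_inertia P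
    ((P.decompositionSubgroup ℚ).inv_mem hσ) hτ
  rwa [inv_inv] at h

/-- a subsingleton satisfies `OrdPts`. -/
theorem ordPts_of_subsingleton {G X : Type*} [AddCommGroup X] [Subsingleton X] (Iner : Set G)
    (act : G → X → X) : OrdPts Iner act :=
  ⟨⊥, fun _ _ _ => by rw [Subsingleton.elim (act _ _ - _) 0]; exact AddSubgroup.zero_mem _,
    fun A _ _ _ _ b _ => by rw [Subsingleton.elim b 0]; exact A.zero_mem⟩

variable {p N : ℕ} [NeZero N] {S : Finset ℕ}
  {𝒪 : Type} [CommRing 𝒪] [IsDomain 𝒪] [IsDiscreteValuationRing 𝒪]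
  [IsAdicComplete (IsLocalRing.maximalIdeal 𝒪) 𝒪]
  {θ : CuspForm.heckeAlgebra N 2 (↑S : Set ℕ) →+* IsLocalRing.ResidueField 𝒪}
  {T : Type} [CommRing T] [IsLocalRing T] [IsNoetherianRing T]
  [IsAdicComplete (IsLocalRing.maximalIdeal T) T] [Algebra 𝒪 T] [IsLocalHom (algebraMap 𝒪 T)]
  [Module.Finite 𝒪 T] [Module.Free 𝒪 T]

/-- **The S33 consumer.** -/
theorem isOrdinaryAt_of_ordTorsion [Finite (IsLocalRing.ResidueField 𝒪)]
    (hF : FrobPowerDense) (hp : p.Prime) (hp𝒪 : (p : 𝒪) ∈ IsLocalRing.maximalIdeal 𝒪)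
    (hpS : p ∈ S) (hNS : ∀ q : ℕ, q.Prime → q ∣ N → q ∈ S)
    (H : CuspForm.HeckeGaloisRepDatum N (↑S : Set ℕ) 𝒪 θ T) (D : TorsionHeckeData p N S)
    (hfin : ∀ m, Finite (D.M m))
    (hbasis : ∀ P : ValuationSubring Qb, P.LiesOverPrime p →
      ∃ B0 : Module.Basis (Fin 2) T H.ρ.V, ∀ τ ∈ P.inertiaSubgroupIn ℚ, ∀ v : H.ρ.V,
        B0.repr (H.ρ.ρ τ v - v) 1 ∈ IsLocalRing.maximalIdeal T)
    (hunit : ∀ P : ValuationSubring Qb, P.LiesOverPrime p →
      ∃ s ∈ P.inertiaSubgroupIn ℚ, IsUnit (LinearMap.det (H.ρ.ρ s) - 1))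
    (hOrd : ∀ P : ValuationSubring Qb, P.LiesOverPrime p → ∀ m,
      OrdPts (P.inertiaSubgroupIn ℚ : Set Γℚ) (fun σ (x : D.M m) => D.gal m σ x)) :
    H.ρ.IsOrdinaryAt p := by
  intro P hP
  obtain ⟨B0, hB0⟩ := hbasis P hP
  obtain ⟨s, hs, hsdet⟩ := hunit P hP
  haveI : Finite (IsLocalRing.ResidueField T) :=
    Fermat.Agent.S19x.C.S32Bridge.finite_residueField H
  have hlev : ∀ n : ℕ, OrdPts (P.inertiaSubgroupIn ℚ : Set Γℚ)
      (fun σ (v : H.ρ.V ⧸ ((IsLocalRing.maximalIdeal T ^ n) • (⊤ : Submodule T H.ρ.V))) =>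
        H.ρ.levelAction (IsLocalRing.maximalIdeal T ^ n) σ v) := by
    intro n
    rcases Nat.eq_zero_or_pos n with rfl | hn
    · haveI : Subsingleton
          (H.ρ.V ⧸ ((IsLocalRing.maximalIdeal T ^ 0) • (⊤ : Submodule T H.ρ.V))) := by
        rw [pow_zero, Ideal.one_eq_top, Submodule.top_smul]
        exact Submodule.Quotient.subsingleton_iff.mpr rfl
      exact ordPts_of_subsingleton _ _
    · haveI : Finite (T ⧸ IsLocalRing.maximalIdeal T) :=
        inferInstanceAs (Finite (IsLocalRing.ResidueField T))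
      haveI : Finite (T ⧸ IsLocalRing.maximalIdeal T ^ n) :=
        Ideal.finite_quotient_pow (IsNoetherian.noetherian _) n
      exact ordPts_quotient_of_torsion _ hF hp hp𝒪 hpS hNS H D hfin (hOrd P hP)
        (IsLocalRing.maximalIdeal T ^ n) (Ideal.pow_le_self hn.ne')
  exact exists_line_of_levels H.ρ.ρ (P.decompositionSubgroup ℚ) (P.inertiaSubgroupIn ℚ)
    (fun σ hσ τ hτ => conj_mem_inertiaSubgroupIn P hσ hτ) B0 hB0 s hs hsdet
    (fun n σ v => H.ρ.levelAction (IsLocalRing.maximalIdeal T ^ n) σ v)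
    (fun n σ v => rfl) hlev

end Fermat.Agent.S33x.Consumer.Main
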