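import Mathlib
import Fermat.Prelude.Def_GaloisRep_LocalConditions

/-!
# S33 consumer (helper95), leaf R: residual ordinarity in coordinates

If the residual representation of `ρ : GaloisRepAdic T` is ordinary at `p` and `P` is a place over
`p`, there is a basis `B0` of `ρ.V` such that the second `B0`-coordinate of every `ρ τ v - v`, `τ` in
the inertia group of `P`, lies in the maximal ideal of `T` (`exists_basis_of_residual`).
-/

set_option autoImplicit false
set_option linter.unusedSectionVars false

open scoped TensorProduct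

namespace Fermat.Agent.S33x.Consumer.ResidualBasis

local notation "Γℚ" => (AlgebraicClosure ℚ ≃ₐ[ℚ] AlgebraicClosure ℚ)
local notation "Qb" => AlgebraicClosure ℚ

section Lift

variable {T : Type} [CommRing T] [IsLocalRing T] {V : Type} [AddCommGroup V] [Module T V]
  [Module.Free T V] [Module.Finite T V]

/-- lifting a basis of the residual module (Nakayama). -/
theorem exists_basis_lifting (bb : Module.Basis (Fin 2) (IsLocalRing.ResidueField T)
      (IsLocalRing.ResidueField T ⊗[T] V)) :
    ∃ B0 : Module.Basis (Fin 2) T V, ∀ (x : V) (i : Fin 2),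
      IsLocalRing.residue T (B0.repr x i) =
        bb.repr ((1 : IsLocalRing.ResidueField T) ⊗ₜ[T] x) i := by
  classical
  have hsurj : Function.Surjective (TensorProduct.mk T (IsLocalRing.ResidueField T) V 1) :=
    TensorProduct.mk_surjective T V (IsLocalRing.ResidueField T) Ideal.Quotient.mk_surjective
  choose w hw using fun i => hsurj (bb i)
  have hw' : ∀ i, (1 : IsLocalRing.ResidueField T) ⊗ₜ[T] w i = bb i := hw
  have hcomp : (TensorProduct.mk T (IsLocalRing.ResidueField T) V 1) ∘ w = bb := funext hw
  have hli : LinearIndependent T w :=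
    Module.IsLocalRing.linearIndependent_of_flat w (by rw [hcomp]; exact bb.linearIndependent)
  have hsp : Submodule.span T (Set.range w) = ⊤ :=
    IsLocalRing.span_eq_top_of_tmul_eq_basis w bb hw'
  set B0 : Module.Basis (Fin 2) T V := Module.Basis.mk hli hsp.ge with hB0
  have hB0w : ∀ i, B0 i = w i := fun i => by rw [hB0, Module.Basis.mk_apply]
  refine ⟨B0, fun x i => ?_⟩
  -- two linear maps `V → k` agreeing on the basis
  set φ : V →ₗ[T] IsLocalRing.ResidueField T :=
    ((bb.coord i).restrictScalars T).comp (TensorProduct.mk T (IsLocalRing.ResidueField T) V 1)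
    with hφ
  set ψ : V →ₗ[T] IsLocalRing.ResidueField T :=
    (Algebra.linearMap T (IsLocalRing.ResidueField T)).comp (B0.coord i) with hψ
  have heq : ψ = φ := by
    apply B0.ext
    intro j
    rw [hψ, hφ]
    simp only [LinearMap.comp_apply, Module.Basis.coord_apply, Module.Basis.repr_self,
      LinearMap.restrictScalars_apply, TensorProduct.mk_apply, Algebra.linearMap_apply]
    rw [hB0w j, hw' j, Module.Basis.repr_self, Finsupp.single_apply, Finsupp.single_apply]
    split_ifs <;> simp
  have := LinearMap.congr_fun heq x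
  rw [hψ, hφ] at this
  simpa using this

end Lift

/-- residual ordinarity in coordinates, abstract form. -/
theorem exists_basis_of_baseChange {T : Type} [CommRing T] [IsLocalRing T] {V : Type}
    [AddCommGroup V] [Module T V] [Module.Free T V] [Module.Finite T V] {G : Type*}
    (r : G → Module.End T V) (Iner : Set G)
    (bb : Module.Basis (Fin 2) (IsLocalRing.ResidueField T) (IsLocalRing.ResidueField T ⊗[T] V))
    (hI : ∀ τ ∈ Iner, ∀ x : IsLocalRing.ResidueField T ⊗[T] V,
      (r τ).baseChange (IsLocalRing.ResidueField T) x - x ∈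
        Submodule.span (IsLocalRing.ResidueField T) {bb 0}) :
    ∃ B0 : Module.Basis (Fin 2) T V, ∀ τ ∈ Iner, ∀ v : V,
      B0.repr (r τ v - v) 1 ∈ IsLocalRing.maximalIdeal T := by
  obtain ⟨B0, hB0⟩ := exists_basis_lifting (T := T) (V := V) bb
  refine ⟨B0, fun τ hτ v => ?_⟩
  rw [← IsLocalRing.residue_eq_zero_iff, hB0]
  have h1 := hI τ hτ ((1 : IsLocalRing.ResidueField T) ⊗ₜ[T] v)
  rw [LinearMap.baseChange_tmul, ← TensorProduct.tmul_sub] at h1
  obtain ⟨c, hc⟩ := Submodule.mem_span_singleton.mp h1
  rw [← hc, map_smul, Finsupp.smul_apply, Module.Basis.repr_self, Finsupp.single_apply]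
  simp

/-- **Leaf R.** -/
theorem exists_basis_of_residual {T : Type} [CommRing T] [IsLocalRing T] (ρ : GaloisRepAdic T)
    {p : ℕ} (P : ValuationSubring Qb) (hP : P.LiesOverPrime p)
    (hres : (GaloisRepAdic.ofResidualGaloisRep ρ.residual).IsOrdinaryAt p) :
    ∃ B0 : Module.Basis (Fin 2) T ρ.V, ∀ τ ∈ P.inertiaSubgroupIn ℚ, ∀ v : ρ.V,
      B0.repr (ρ.ρ τ v - v) 1 ∈ IsLocalRing.maximalIdeal T := by
  obtain ⟨Lb, ⟨bb, hLb⟩, -, hI⟩ := hres P hP
  subst hLb
  exact exists_basis_of_baseChange (fun σ => ρ.ρ σ) (P.inertiaSubgroupIn ℚ : Set Γℚ) bb hI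

end Fermat.Agent.S33x.Consumer.ResidualBasis
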