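import Mathlib
import Fermat.Agent.S33x.Consumer.Main
import Fermat.Agent.S33x.Consumer.ResidualBasis
import Fermat.Agent.S33x.Consumer.Conj
import Fermat.Agent.S33x.Consumer.InertiaUnit
import Fermat.Agent.Gateway.Export.C0Good
import Fermat.Agent.Gateway.S31.FromExport
import Fermat.Agent.Gateway.S30.FromCoreInputs

/-!
# S33 consumer (helper95), part 6: the frozen conclusion of S33 from `QOrd`

`QOrdAt N p` : for ONE valuation subring `P0` of `ℚ̄` over `p` and every `m`, the group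
`JTors N (p ^ m) = J₀(N)[p ^ m]` with its Galois action satisfies `OrdPts (inertia group of P0)`:
there is a subgroup `W` containing all `τ x - x` (`τ` in the inertia group) without nonzero
subquotient with trivial inertia action.  THIS is the geometric input of S33.

`s33_of_qOrd` : the conclusion of the frozen statement S33 from `QOrdAt N p`, the residual
ordinarity `hres` and the existence, at every place `P` over `p`, of an inertia element `s` with
`det ρ(s) - 1` a unit (leaf I, `hunit`).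
-/

set_option autoImplicit false
set_option linter.unusedSectionVars false
set_option linter.style.haveILetI false

noncomputable section

namespace Fermat.Agent.S33x.Consumer.Final

open Fermat.Agent.S33x.Consumer.Ord Fermat.Agent.Gateway.S31Red

local notation "Γℚ" => (AlgebraicClosure ℚ ≃ₐ[ℚ] AlgebraicClosure ℚ)
local notation "Qb" => AlgebraicClosure ℚ

/-- **The geometric input of S33.** -/
def QOrdAt (N p : ℕ) : Prop :=
  ∃ P0 : ValuationSubring Qb, P0.LiesOverPrime p ∧ ∀ m : ℕ,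
    OrdPts (P0.inertiaSubgroupIn ℚ : Set Γℚ)
      (fun σ (x : JTors N (p ^ m)) => galTors N (p ^ m) σ x)

variable {p N : ℕ} [NeZero N] {S : Finset ℕ}
  {𝒪 : Type} [CommRing 𝒪] [IsDomain 𝒪] [IsDiscreteValuationRing 𝒪]
  [IsAdicComplete (IsLocalRing.maximalIdeal 𝒪) 𝒪]
  {θ : CuspForm.heckeAlgebra N 2 (↑S : Set ℕ) →+* IsLocalRing.ResidueField 𝒪}
  {T : Type} [CommRing T] [IsLocalRing T] [IsNoetherianRing T]
  [IsAdicComplete (IsLocalRing.maximalIdeal T) T] [Algebra 𝒪 T] [IsLocalHom (algebraMap 𝒪 T)]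
  [Module.Finite 𝒪 T] [Module.Free 𝒪 T]

/-- **S33 from `QOrd`** (with leaf I as a hypothesis). -/
theorem s33_of_qOrd [Finite (IsLocalRing.ResidueField 𝒪)]
    (hp : p.Prime) (hp𝒪 : (p : 𝒪) ∈ IsLocalRing.maximalIdeal 𝒪)
    (hpS : p ∈ S) (hNS : ∀ q : ℕ, q.Prime → q ∣ N → q ∈ S)
    (H : CuspForm.HeckeGaloisRepDatum N (↑S : Set ℕ) 𝒪 θ T)
    (hres : (GaloisRepAdic.ofResidualGaloisRep H.ρ.residual).IsOrdinaryAt p)
    (hunit : ∀ P : ValuationSubring Qb, P.LiesOverPrime p →
      ∃ s ∈ P.inertiaSubgroupIn ℚ, IsUnit (LinearMap.det (H.ρ.ρ s) - 1))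
    (hG : QOrdAt N p) :
    H.ρ.IsOrdinaryAt p := by
  have hC := Fermat.Agent.Gateway.Export.partCInputs Fermat.Agent.Gateway.Export.c0Good N
  have hD5 := Fermat.Agent.Gateway.Export.d5Input N
  obtain ⟨P0, hP0, hOrd0⟩ := hG
  set D : TorsionHeckeData p N S := torsionHeckeDataOfExport hp hpS hNS
      (Fermat.Agent.Gateway.Export.heckeTorsionAction N
        (Fermat.Agent.Gateway.Export.coreInputs N hD5) S hNS)
      (galoisHeckeComm N) (Fermat.Agent.Gateway.Export.torsionEichlerShimura hC)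
      (Fermat.Agent.Gateway.Export.torsionGalLevel N) with hD
  refine Fermat.Agent.S33x.Consumer.Main.isOrdinaryAt_of_ordTorsion
    (frobPowerDense_of_lib Fermat.Agent.Lib.FrobDensity.frobPowerDense) hp hp𝒪 hpS hNS H D ?_
    (fun P hP => Fermat.Agent.S33x.Consumer.ResidualBasis.exists_basis_of_residual H.ρ P hP hres)
    hunit ?_
  · intro m
    exact Fermat.Agent.Gateway.Assembly.finite_JTors
      (Fermat.Agent.Gateway.Export.coreInputs N hD5) (p ^ m) (pow_pos hp.pos m)
  · intro P hP m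
    exact Fermat.Agent.S33x.Consumer.Conj.ordPts_of_place (galTors N (p ^ m)) hp P0 hP0 (hOrd0 m)
      P hP

/-- **The geometric target of S33**: `QOrdAt N p` for every odd prime `p` exactly dividing `N`. -/
def QOrdTarget : Prop :=
  ∀ (N : ℕ) [NeZero N] (p : ℕ), p.Prime → p ≠ 2 → p ∣ N → ¬ p ^ 2 ∣ N → QOrdAt N p

/-- **The frozen statement S33 from `QOrdAt N p`** (same hypotheses as the frozen statement). -/
theorem s33_of_qOrdAt [Finite (IsLocalRing.ResidueField 𝒪)]
    (hp : p.Prime) (hp2 : p ≠ 2) (hp𝒪 : (p : 𝒪) ∈ IsLocalRing.maximalIdeal 𝒪)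
    (hN : p ∣ N ∧ ¬ p ^ 2 ∣ N) (hNS : ∀ q : ℕ, q.Prime → q ∣ N → q ∈ S)
    (H : CuspForm.HeckeGaloisRepDatum N (↑S : Set ℕ) 𝒪 θ T)
    (hres : (GaloisRepAdic.ofResidualGaloisRep H.ρ.residual).IsOrdinaryAt p)
    (hG : QOrdAt N p) :
    H.ρ.IsOrdinaryAt p := by
  have hpS : p ∈ S := hNS p hp hN.1
  have hC := Fermat.Agent.Gateway.Export.partCInputs Fermat.Agent.Gateway.Export.c0Good N
  have hD5 := Fermat.Agent.Gateway.Export.d5Input N
  refine s33_of_qOrd hp hp𝒪 hpS hNS H hres (fun P hP => ?_) hG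
  exact Fermat.Agent.S33x.Consumer.InertiaUnit.exists_inertia_det_sub_one_isUnit
    (frobPowerDense_of_lib Fermat.Agent.Lib.FrobDensity.frobPowerDense) hp hp2 hp𝒪 hpS hNS H
    (torsionHeckeDataOfExport hp hpS hNS
      (Fermat.Agent.Gateway.Export.heckeTorsionAction N
        (Fermat.Agent.Gateway.Export.coreInputs N hD5) S hNS)
      (galoisHeckeComm N) (Fermat.Agent.Gateway.Export.torsionEichlerShimura hC)
      (Fermat.Agent.Gateway.Export.torsionGalLevel N)) P hP

/-- **The frozen statement S33 from the geometric target.** -/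
theorem s33_of_target (hT : QOrdTarget) [Finite (IsLocalRing.ResidueField 𝒪)]
    (hp : p.Prime) (hp2 : p ≠ 2) (hp𝒪 : (p : 𝒪) ∈ IsLocalRing.maximalIdeal 𝒪)
    (hN : p ∣ N ∧ ¬ p ^ 2 ∣ N) (hNS : ∀ q : ℕ, q.Prime → q ∣ N → q ∈ S)
    (H : CuspForm.HeckeGaloisRepDatum N (↑S : Set ℕ) 𝒪 θ T)
    (hres : (GaloisRepAdic.ofResidualGaloisRep H.ρ.residual).IsOrdinaryAt p) :
    H.ρ.IsOrdinaryAt p :=
  s33_of_qOrdAt hp hp2 hp𝒪 hN hNS H hres (hT N p hp hp2 hN.1 hN.2)

end Fermat.Agent.S33x.Consumer.Final
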