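import Mathlib
import Fermat.Agent.S33x.Consumer.OrdPts
import Fermat.Agent.Gateway.Descent.PicIncl
import Fermat.Agent.Gateway.S31.FromExport

/-!
# S33 consumer, leaf LEVEL TRANSPORT (helper55): `OrdPts` descends from the good level

`M = lcm N 4` or `lcm N 9`: the pull-back `π^* : J₀(N) → J₀(M)` is injective and Galois equivariant
(`Gateway.Descent.pullbackPic_injective`, `pullbackPic_smul`), so the `n`-torsion of `J₀(N)` is a
Galois-stable subgroup of the `n`-torsion of `J₀(M)` and `OrdPts` passes from level `M` to level `N`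
(`Ord.OrdPts.of_subquotient` with `Ψ = π^*`, `Φ = id`).
-/

set_option autoImplicit false
set_option linter.unusedSectionVars false

noncomputable section

namespace Fermat.Agent.S33x.Consumer.LevelTransport

open ModularCurve AlgebraicCurve Fermat.Agent.Gateway.S31Red Fermat.Agent.S33x.Consumer.Ord

local notation "Γℚ" => (AlgebraicClosure ℚ ≃ₐ[ℚ] AlgebraicClosure ℚ)

/-- the pull-back on the `n`-torsion. -/
def pullbackTors {N M : ℕ} [NeZero N] [NeZero M] (hNM : N ∣ M) (n : ℕ) : JTors N n →+ JTors M n where
  toFun x := ⟨Fermat.Agent.Gateway.Descent.pullbackPic hNM (x : JZero N), by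
    refine Pic0.mem_torsion.mpr ?_
    have hx := Pic0.mem_torsion.mp x.2
    rw [← map_zsmul, hx, map_zero]⟩
  map_zero' := Subtype.ext (map_zero _)
  map_add' x y := Subtype.ext (map_add _ _ _)

theorem coe_pullbackTors {N M : ℕ} [NeZero N] [NeZero M] (hNM : N ∣ M) (n : ℕ) (x : JTors N n) :
    ((pullbackTors hNM n x : JTors M n) : JZero M) =
      Fermat.Agent.Gateway.Descent.pullbackPic hNM (x : JZero N) := rfl

/-- **LEVEL TRANSPORT.** -/
theorem ordPts_of_goodLevel {N M : ℕ} [NeZero N] [NeZero M]
    (hM : M = Nat.lcm N 4 ∨ M = Nat.lcm N 9) (n : ℕ) (Iner : Set Γℚ)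
    (h : OrdPts Iner (fun σ (x : JTors M n) => galTors M n σ x)) :
    OrdPts Iner (fun σ (x : JTors N n) => galTors N n σ x) := by
  have hNM : N ∣ M := Fermat.Agent.Gateway.Descent.dvd_of_eq_lcm_or hM
  refine OrdPts.of_subquotient (actA := fun σ (x : JTors N n) => galTors N n σ x) h
    (pullbackTors hNM n) (AddMonoidHom.id _) ?_ (fun _ _ => rfl) (fun x => ⟨x, rfl⟩) ?_
  · intro σ a
    apply Subtype.ext
    rw [coe_pullbackTors, coe_galTors_apply, coe_galTors_apply, coe_pullbackTors]
    exact Fermat.Agent.Gateway.Descent.pullbackPic_smul hNM σ (a : JZero N)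
  · intro a ha
    have h1 : Fermat.Agent.Gateway.Descent.pullbackPic hNM (a : JZero N) = 0 := by
      have := congrArg (fun y : JTors M n => (y : JZero M)) ha
      simpa [coe_pullbackTors] using this
    have h2 : (a : JZero N) = 0 :=
      Fermat.Agent.Gateway.Descent.pullbackPic_injective hM (by rw [h1, map_zero])
    exact Subtype.ext h2

end Fermat.Agent.S33x.Consumer.LevelTransport
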