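import Mathlib
import Fermat.Agent.S33x.Consumer.LevelTransport
import Fermat.Agent.S33x.Consumer.Final

/-!
# S33 consumer, LAYER 4 (helper55): the geometric target at the good levels only

`QOrdAtGoodLevels` : `Final.QOrdAt (M₀ * p) p` for the good levels `M = M₀ * p` (`p` odd, `p ∤ M₀`,
`4 ∣ M₀`): the levels at which the semistable reduction setup of `S34x` exists.

`qOrdTarget_of_goodLevels` : the target `Final.QOrdTarget` of the consumer at EVERY level `N` with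
`p ‖ N` follows, by pulling `J₀(N)[p ^ m]` back to the good level `lcm N 4 = M₀ * p`
(`LevelTransport.ordPts_of_goodLevel`).
-/

set_option autoImplicit false
set_option linter.unusedSectionVars false

namespace Fermat.Agent.S33x.Consumer.GoodLevelTarget

open Fermat.Agent.S33x.Consumer.Final Fermat.Agent.S33x.Consumer.LevelTransport

/-- **The geometric target of S33 at the good levels.** -/
def QOrdAtGoodLevels : Prop :=
  ∀ (M₀ p : ℕ) [NeZero M₀], p.Prime → p ≠ 2 → ¬ p ∣ M₀ → 4 ∣ M₀ → QOrdAt (M₀ * p) p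

/-- the arithmetic of the good level `lcm N 4` for an odd prime `p ‖ N`. -/
theorem goodLevel_arith_four {N p : ℕ} (hN : N ≠ 0) (hp : p.Prime) (hp2 : p ≠ 2) (hpN : p ∣ N)
    (hp2N : ¬ p ^ 2 ∣ N) :
    ∃ M₀ : ℕ, M₀ ≠ 0 ∧ M₀ * p = Nat.lcm N 4 ∧ ¬ p ∣ M₀ ∧ 4 ∣ M₀ := by
  have hcop : Nat.Coprime p 4 := by
    have : Nat.Coprime p 2 := (Nat.coprime_primes hp Nat.prime_two).mpr hp2
    exact Nat.Coprime.pow_right 2 this
  have hM0 : Nat.lcm N 4 ≠ 0 := Nat.lcm_ne_zero hN (by norm_num)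
  have hpM : p ∣ Nat.lcm N 4 := hpN.trans (Nat.dvd_lcm_left N 4)
  have hp2M : ¬ p ^ 2 ∣ Nat.lcm N 4 := by
    intro h
    have h1 : p ^ 2 ∣ N * 4 := h.trans (Nat.lcm_dvd_mul N 4)
    exact hp2N ((Nat.Coprime.pow_left 2 hcop).dvd_of_dvd_mul_right h1)
  have hM : Nat.lcm N 4 = Nat.lcm N 4 / p * p := (Nat.div_mul_cancel hpM).symm
  refine ⟨Nat.lcm N 4 / p, ?_, hM.symm, ?_, ?_⟩
  · intro h0
    rw [h0, zero_mul] at hM
    exact hM0 hM
  · intro h
    apply hp2M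
    have := Nat.mul_dvd_of_dvd_div hpM h
    rwa [← sq] at this
  · have h1 : 4 ∣ Nat.lcm N 4 / p * p := hM ▸ Nat.dvd_lcm_right N 4
    exact (Nat.Coprime.symm hcop).dvd_of_dvd_mul_right h1

/-- **LAYER 4**: the target at the good levels gives the target of the consumer. -/
theorem qOrdTarget_of_goodLevels (h : QOrdAtGoodLevels) : QOrdTarget := by
  intro N _ p hp hp2 hpN hp2N
  obtain ⟨M₀, hM₀, hM, hpM₀, h4⟩ := goodLevel_arith_four (NeZero.ne N) hp hp2 hpN hp2N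
  have : NeZero M₀ := ⟨hM₀⟩
  have : NeZero (M₀ * p) := ⟨mul_ne_zero hM₀ hp.ne_zero⟩
  obtain ⟨P0, hP0, hOrd⟩ := h M₀ p hp hp2 hpM₀ h4
  exact ⟨P0, hP0, fun m => ordPts_of_goodLevel (Or.inl hM) (p ^ m) _ (hOrd m)⟩

end Fermat.Agent.S33x.Consumer.GoodLevelTarget
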