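import Mathlib
import Fermat.Agent.S33x.Consumer.OrdPts

/-!
# S33 consumer, final plug (helper55): `OrdPts` from a subgroup whose OWN subgroups have no
inertia-trivial subquotient

Layer 3 of P-S33 (`S33x/L3/OrderOfCoords.noTriv_of_coords`, `S33x/CPFull.le_of_trivial_quotient`,
`S33x/FF/NoTriv`) proves statements about ALL subgroups `A ≤ B` of a TYPE `X₁` carrying an action
(`X₁ = ↥K`, the subgroup of `X = J[p ^ m]` cut out by the Kummer classes).  The consumer
(`Ord.OrdPts`) wants a subgroup `W ≤ X` with `Ord.NoTriv Iner act W`.  This file is the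
dictionary:

* `restrictAct act W` : the action restricted to `↥W` (junk `= id` where `act σ w ∉ W`);
* `coe_restrictAct` : it is the restriction for every `σ` with `act σ w - w ∈ W`;
* `ordPts_of_noTriv_subtype` : if `act τ x - x ∈ W` for all `τ ∈ Iner`, `x : X`, and every pair of
  subgroups `A ≤ B` of `↥W` with `A` `Iner`-stable and `Iner` acting trivially on `B / A` (for ANY
  action `actW` on `↥W` compatible with `act` on `Iner`) satisfies `B ≤ A`, then `OrdPts Iner act`.
Mathlib only.
-/

set_option autoImplicit false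

namespace Fermat.Agent.S33x.Consumer.OfSubgroup

open Fermat.Agent.S33x.Consumer.Ord

variable {G : Type*} {X : Type*} [AddCommGroup X]

open Classical in
/-- the action restricted to a subgroup (the identity where it does not preserve the subgroup). -/
noncomputable def restrictAct (act : G → X → X) (W : AddSubgroup X) : G → W → W :=
  fun σ w => if h : act σ (w : X) ∈ W then ⟨act σ (w : X), h⟩ else w

theorem coe_restrictAct_of_mem (act : G → X → X) (W : AddSubgroup X) (σ : G) (w : W)
    (h : act σ (w : X) ∈ W) : ((restrictAct act W σ w : W) : X) = act σ (w : X) := by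
  unfold restrictAct
  rw [dif_pos h]

theorem coe_restrictAct (act : G → X → X) (W : AddSubgroup X) {Iner : Set G}
    (h1 : ∀ τ ∈ Iner, ∀ x : X, act τ x - x ∈ W) {τ : G} (hτ : τ ∈ Iner) (w : W) :
    ((restrictAct act W τ w : W) : X) = act τ (w : X) := by
  apply coe_restrictAct_of_mem
  have : act τ (w : X) = (act τ (w : X) - (w : X)) + (w : X) := by abel
  rw [this]
  exact W.add_mem (h1 τ hτ _) w.2

/-- **The final plug**, for an arbitrary action `actW` on `↥W` compatible with `act` on `Iner`. -/
theorem ordPts_of_noTriv_subtype (Iner : Set G) (act : G → X → X) (W : AddSubgroup X)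
    (actW : G → W → W)
    (hcompat : ∀ τ ∈ Iner, ∀ w : W, ((actW τ w : W) : X) = act τ (w : X))
    (h1 : ∀ τ ∈ Iner, ∀ x : X, act τ x - x ∈ W)
    (h2 : ∀ A B : AddSubgroup W, A ≤ B → (∀ τ ∈ Iner, ∀ a ∈ A, actW τ a ∈ A) →
      (∀ τ ∈ Iner, ∀ y ∈ B, actW τ y - y ∈ A) → B ≤ A) :
    OrdPts Iner act := by
  refine ⟨W, h1, ?_⟩
  intro A B hAB hBW h
  have key : B.comap W.subtype ≤ A.comap W.subtype := by
    refine h2 _ _ (AddSubgroup.comap_mono hAB) ?_ ?_
    · intro τ hτ a ha
      show ((actW τ a : W) : X) ∈ A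
      rw [hcompat τ hτ a]
      have ha' : (a : X) ∈ A := ha
      have : act τ (a : X) = (act τ (a : X) - (a : X)) + (a : X) := by abel
      rw [this]
      exact A.add_mem (h τ hτ _ (hAB ha')) ha'
    · intro τ hτ y hy
      show ((actW τ y - y : W) : X) ∈ A
      rw [AddSubgroup.coe_sub, hcompat τ hτ y]
      exact h τ hτ _ hy
  intro b hb
  have hb' : (⟨b, hBW hb⟩ : W) ∈ B.comap W.subtype := by
    rw [AddSubgroup.mem_comap]
    exact hb
  have := key hb'
  rw [AddSubgroup.mem_comap] at this
  exact this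

/-- **The final plug**, with the canonical restricted action. -/
theorem ordPts_of_noTriv_restrict (Iner : Set G) (act : G → X → X) (W : AddSubgroup X)
    (h1 : ∀ τ ∈ Iner, ∀ x : X, act τ x - x ∈ W)
    (h2 : ∀ A B : AddSubgroup W, A ≤ B → (∀ τ ∈ Iner, ∀ a ∈ A, restrictAct act W τ a ∈ A) →
      (∀ τ ∈ Iner, ∀ y ∈ B, restrictAct act W τ y - y ∈ A) → B ≤ A) :
    OrdPts Iner act :=
  ordPts_of_noTriv_subtype Iner act W (restrictAct act W)
    (fun _ hτ w => coe_restrictAct act W h1 hτ w) h1 h2

end Fermat.Agent.S33x.Consumer.OfSubgroup
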