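import Mathlib
import Fermat.Agent.S33x.Consumer.GoodLevelTarget
import Fermat.Agent.S33x.L3.NoTrivSub

/-!
# S33 consumer, LAYER 4 (helper55): the final plug, in the vocabulary of Layer 3

`CoordsAt P N n` : on `X = J₀(N)[n]` with its Galois action there is a subgroup `X1`

* containing all `τ x - x` for `τ` in the inertia group `I` of `P` (hence `I`-stable), and
* carrying EXACT `I`-equivariant separating coordinate functions `u i : ↥X1 → ℚ̄` with values in the
  maximal ideal of `P`, whose comultiplications decompose inside the order they generate over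
  `inertiaInt P` (the hypotheses of `L3.NoTrivSub.noTriv_of_coords_sub`, helper90).

`ordPts_of_coordsAt` : `CoordsAt P N (ℓ ^ m)` (`ℓ` odd, `P | ℓ`) gives `Ord.OrdPts I (galTors N (ℓ ^ m))`.

`CoordsAtGoodLevels` : `CoordsAt P0 (M₀ * p) (p ^ m)` for ONE `P0 | p` and all `m`, at every good level
`M₀ * p` (`p` odd, `p ∤ M₀`, `4 ∣ M₀`).  This is the literal output asked from layers KP + L1-L3
(`X1 := K_m`, helper81's `KummerPn.KmTors`).

`qOrdTarget_of_coordTarget : CoordsAtGoodLevels → Final.QOrdTarget`, so that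
`Final.s33_of_target (qOrdTarget_of_coordTarget h)` is the frozen conclusion of S33.
-/

set_option autoImplicit false
set_option linter.unusedSectionVars false
set_option linter.unusedVariables false
set_option linter.style.haveILetI false

noncomputable section

namespace Fermat.Agent.S33x.Consumer.CoordTarget

open Fermat.Agent.S33x.Consumer.Ord Fermat.Agent.Gateway.S31Red
open Fermat.Agent.S56x.Flat.InertiaField

local notation "Γℚ" => (AlgebraicClosure ℚ ≃ₐ[ℚ] AlgebraicClosure ℚ)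
local notation "Qb" => AlgebraicClosure ℚ

/-- the Galois action on `J₀(N)[n]` as a plain family of maps. -/
abbrev actTors (N n : ℕ) : Γℚ → JTors N n → JTors N n := fun σ x => galTors N n σ x

theorem actTors_one (N n : ℕ) (x : JTors N n) : actTors N n 1 x = x := by
  show galTors N n 1 x = x
  rw [map_one]
  rfl

theorem actTors_mul (N n : ℕ) (σ τ : Γℚ) (x : JTors N n) :
    actTors N n (σ * τ) x = actTors N n σ (actTors N n τ x) := by
  show galTors N n (σ * τ) x = galTors N n σ (galTors N n τ x)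
  rw [map_mul]
  rfl

theorem actTors_add (N n : ℕ) (σ : Γℚ) (x y : JTors N n) :
    actTors N n σ (x + y) = actTors N n σ x + actTors N n σ y :=
  map_add (galTors N n σ) x y

/-- a subgroup containing all `τ x - x` is stable under `τ`. -/
theorem stable_of_sub_mem {N n : ℕ} {Iner : Set Γℚ} {X1 : AddSubgroup (JTors N n)}
    (h : ∀ τ ∈ Iner, ∀ x, actTors N n τ x - x ∈ X1) :
    ∀ τ ∈ Iner, ∀ x ∈ X1, actTors N n τ x ∈ X1 := by
  intro τ hτ x hx
  have h2 : actTors N n τ x = (actTors N n τ x - x) + x := by abel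
  rw [h2]
  exact X1.add_mem (h τ hτ x) hx

/-- **Exact coordinates at one level** (the output of layers KP + L1-L3 for `X1 := K_m`). -/
def CoordsAt (P : ValuationSubring Qb) (N n : ℕ) : Prop :=
  ∃ (X1 : AddSubgroup (JTors N n))
    (hstab : ∀ τ ∈ P.inertiaSubgroupIn ℚ, ∀ x ∈ X1, actTors N n τ x ∈ X1),
    (∀ τ ∈ P.inertiaSubgroupIn ℚ, ∀ x, actTors N n τ x - x ∈ X1) ∧
    ∃ (g : ℕ) (u : Fin g → ↥X1 → Qb),
      (∀ i, ∀ τ ∈ P.inertiaSubgroupIn ℚ, ∀ x : ↥X1,
        u i (Fermat.Agent.S33x.L3.NoTrivSub.restrictAct P (actTors N n) X1 hstab τ x) =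
          τ (u i x)) ∧
      (∀ i x, u i x ∈ P.nonunits) ∧
      (∀ x y : ↥X1, x ≠ y → ∃ i, u i x ≠ u i y) ∧
      (∀ i, ∃ (m : ℕ) (a b : Fin m → ↥X1 → Qb),
        (∀ k, a k ∈ Algebra.adjoin (inertiaInt P) (Set.range u)) ∧
        (∀ k, b k ∈ Algebra.adjoin (inertiaInt P) (Set.range u)) ∧
        ∀ s t : ↥X1, u i (s + t) = ∑ k, a k s * b k t)

/-- the same, with the stability of `X1` derived from `(i)` (convenience constructor). -/
theorem coordsAt_of_sub_mem {P : ValuationSubring Qb} {N n : ℕ}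
    (X1 : AddSubgroup (JTors N n))
    (h1 : ∀ τ ∈ P.inertiaSubgroupIn ℚ, ∀ x, actTors N n τ x - x ∈ X1)
    {g : ℕ} (u : Fin g → ↥X1 → Qb)
    (hueq : ∀ i, ∀ τ ∈ P.inertiaSubgroupIn ℚ, ∀ x : ↥X1,
      u i (Fermat.Agent.S33x.L3.NoTrivSub.restrictAct P (actTors N n) X1
        (stable_of_sub_mem h1) τ x) = τ (u i x))
    (humem : ∀ i x, u i x ∈ P.nonunits)
    (husep : ∀ x y : ↥X1, x ≠ y → ∃ i, u i x ≠ u i y)
    (hucomul : ∀ i, ∃ (m : ℕ) (a b : Fin m → ↥X1 → Qb),
      (∀ k, a k ∈ Algebra.adjoin (inertiaInt P) (Set.range u)) ∧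
      (∀ k, b k ∈ Algebra.adjoin (inertiaInt P) (Set.range u)) ∧
      ∀ s t : ↥X1, u i (s + t) = ∑ k, a k s * b k t) :
    CoordsAt P N n :=
  ⟨X1, stable_of_sub_mem h1, h1, g, u, hueq, humem, husep, hucomul⟩

/-- **`OrdPts` from exact coordinates on `X1`.** -/
theorem ordPts_of_coordsAt {ℓ N m : ℕ} [NeZero N] (hℓ : ℓ.Prime) (hℓ2 : ℓ ≠ 2)
    (P : ValuationSubring Qb) (hP : P.LiesOverPrime ℓ) (h : CoordsAt P N (ℓ ^ m)) :
    OrdPts (P.inertiaSubgroupIn ℚ : Set Γℚ)
      (fun σ (x : JTors N (ℓ ^ m)) => galTors N (ℓ ^ m) σ x) := by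
  obtain ⟨X1, hstab, h1, g, u, hueq, humem, husep, hucomul⟩ := h
  have hD5 := Fermat.Agent.Gateway.Export.d5Input N
  haveI : Finite (JTors N (ℓ ^ m)) :=
    Fermat.Agent.Gateway.Assembly.finite_JTors
      (Fermat.Agent.Gateway.Export.coreInputs N hD5) (ℓ ^ m) (pow_pos hℓ.pos m)
  haveI : Finite ↥X1 := Finite.of_injective (fun x : ↥X1 => (x : JTors N (ℓ ^ m)))
    Subtype.val_injective
  refine ⟨X1, h1, ?_⟩
  refine Fermat.Agent.S33x.L3.NoTrivSub.noTriv_of_coords_sub P (actTors N (ℓ ^ m)) X1 hstab hℓ hP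
    (actTors_one N (ℓ ^ m)) (fun σ _ τ _ x => actTors_mul N (ℓ ^ m) σ τ x)
    (fun σ _ x y => actTors_add N (ℓ ^ m) σ x y) u hueq humem husep hucomul hℓ2 ?_
  intro x _
  refine ⟨m, Subtype.ext ?_⟩
  rw [AddSubgroup.coe_nsmul]
  exact nsmul_coe_eq_zero x

/-- **The target of layers KP + L1-L3**: exact coordinates at every good level. -/
def CoordsAtGoodLevels : Prop :=
  ∀ (M₀ p : ℕ) [NeZero M₀], p.Prime → p ≠ 2 → ¬ p ∣ M₀ → 4 ∣ M₀ →
    ∃ P0 : ValuationSubring Qb, P0.LiesOverPrime p ∧ ∀ m : ℕ, CoordsAt P0 (M₀ * p) (p ^ m)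

theorem qOrdAtGoodLevels_of_coordTarget (h : CoordsAtGoodLevels) :
    Fermat.Agent.S33x.Consumer.GoodLevelTarget.QOrdAtGoodLevels := by
  intro M₀ p _ hp hp2 hpM₀ h4
  haveI : NeZero (M₀ * p) := ⟨mul_ne_zero (NeZero.ne M₀) hp.ne_zero⟩
  obtain ⟨P0, hP0, hc⟩ := h M₀ p hp hp2 hpM₀ h4
  exact ⟨P0, hP0, fun m => ordPts_of_coordsAt hp hp2 P0 hP0 (hc m)⟩

/-- **P-S33, everything above Layer 3**: exact coordinates at the good levels give the target of
the consumer (`Final.s33_of_target` then gives the frozen conclusion of S33). -/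
theorem qOrdTarget_of_coordTarget (h : CoordsAtGoodLevels) :
    Fermat.Agent.S33x.Consumer.Final.QOrdTarget :=
  Fermat.Agent.S33x.Consumer.GoodLevelTarget.qOrdTarget_of_goodLevels
    (qOrdAtGoodLevels_of_coordTarget h)

end Fermat.Agent.S33x.Consumer.CoordTarget
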