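import Mathlib
import Fermat.Agent.S33x.Cech.InstIface
import Fermat.Agent.S33x.Bridge.TargetOfCharts
import Fermat.Agent.Lib.FrobeniusExists

/-!
# S33 consumer (helper95): the `ℚ̄`-END of LAYER 2 (independent second)

LAYER 2 exports, in the generic context of `S33x/KummerPn` (`L` an algebraic closure of `ℚ`, `A` a
valuation subring over `q`, level `M q`), the statement `Cech.InstIface.ChartsMq H hA m`:
approximate charts at every precision on the TYPE `↥(Km H hA m)`, `Km H hA m ≤ Pic0 L (FL L (M q))`.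

This file specialises it to `L = ℚ̄`, `A = P0`, `M = M₀`, `q = p`, `m = p ^ n` and transports the
charts to the subgroup `KmTors M₀ p .. (p ^ n)` of `JTors (M₀ p) (p ^ n)` with the restricted Galois
action, which gives `Bridge.TargetOfCharts.ChartsAtGoodLevels`, the geometric contract of the
consumer.

* `ChartsMqQb M₀ p hp hpM P0 hP0 m` : `ChartsMq` at the `ℚ̄`-instance (same instance block as
  `KummerPn.KmQb`);
* `ChartAtSub`, `hasApproxCharts_comap` : the abstract transport of charts from the type `↥K'`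
  (`K'` a subgroup of an abelian group `Y`) to the type `↥(K'.comap j)` with the restricted action;
* `KmT H hA m` : `K_m ∩ J[m]` as a subgroup of `JTors (M q) m` (`= KummerPn.KmTors` at the
  `ℚ̄`-instance, `kmT_eq_kmTors`), `actT_sub_mem_KmT` = (i);
* `hasApproxCharts_of_chartsMq` : `Iface.HasApproxCharts q A ↥(KmT H hA m) (restrictAct galTors ..)`;
* `chartsAtGoodLevels_of_chartsMqQb(_exists)` : `ChartsAtGoodLevels` from `ChartsMqQb` at all good
  levels, at every place (resp. at ONE place `P0`) over `p`.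
-/

set_option autoImplicit false
set_option linter.unusedSectionVars false
set_option linter.style.haveILetI false

noncomputable section

namespace Fermat.Agent.S33x.Consumer.QbEnd

open ModularCurve AlgebraicCurve IsLocalRing
open Fermat.Agent.Gateway.Hecke Fermat.Agent.Gateway.ESC
open Fermat.Agent.Gateway.Red Fermat.Agent.Gateway.GoodRed
open Fermat.Agent.S34x.TwoVal Fermat.Agent.S34x.C0two
open Fermat.Agent.S34x.Inst.RedSetupInst Fermat.Agent.S34x.Inst
open Fermat.Agent.S33x.KummerPn Fermat.Agent.S33x.Cech.InstIface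
open Fermat.Agent.S33x.Iface Fermat.Agent.S33x.Consumer.OfSubgroup
open Fermat.Agent.S33x.Bridge.TargetOfCharts
open Fermat.Agent.S56x.Flat.InertiaField
open Fermat.Agent.Gateway.S31Red

local notation "Qb" => AlgebraicClosure ℚ
local notation "Γℚ" => (AlgebraicClosure ℚ ≃ₐ[ℚ] AlgebraicClosure ℚ)

/-- **`ChartsMq` at the `ℚ̄`-instance** (level `M₀ p`, valuation subring `P0` over `p`, exponent
`m`), with the instance block of `KummerPn.KmQb`. -/
def ChartsMqQb (M₀ p : ℕ) [NeZero M₀] [NeZero p] (hp : p.Prime) (hpM : ¬ p ∣ M₀)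
    (P0 : ValuationSubring Qb) (hP0 : P0.LiesOverPrime p) (m : ℕ) : Prop :=
  haveI : Algebra.IsAlgebraic ℚ Qb := AlgebraicClosure.isAlgebraic ℚ
  haveI : Fact p.Prime := ⟨hp⟩
  haveI : IsAlgClosed (ResidueField P0) := FinalBase.isAlgClosed_residueField P0
  haveI : CharP (ResidueField P0) p := FinalBase.charP_residueField P0 hP0
  ChartsMq (ResidueInst.residueFacts P0 (residue P0) M₀ p (hdegQb M₀ p hp hpM) hp hpM
    (FinalBase.rank_one P0 hp hP0) (FinalBase.residue_surjective P0)) hP0 m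

section Lift

/-- a polynomial over `ℚ̄` with coefficients in `inertiaInt P` comes from `inertiaInt P`. -/
theorem exists_lift_poly (P : ValuationSubring Qb) {σ : Type*} (F : MvPolynomial σ Qb)
    (hF : ∀ d, MvPolynomial.coeff d F ∈ P ∧
      ∀ τ ∈ P.inertiaSubgroupIn ℚ, τ (MvPolynomial.coeff d F) = MvPolynomial.coeff d F) :
    ∃ F' : MvPolynomial σ (inertiaInt P), ∀ v : σ → Qb,
      MvPolynomial.aeval v F' = MvPolynomial.eval v F := by
  have hmem : F ∈ Set.range (MvPolynomial.map (inertiaInt P).subtype) := by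
    rw [MvPolynomial.mem_range_map_iff_coeffs_subset]
    intro c hc
    obtain ⟨d, _, rfl⟩ := MvPolynomial.mem_coeffs_iff.mp hc
    exact ⟨⟨_, (mem_inertiaInt P).mpr (hF d)⟩, rfl⟩
  obtain ⟨F', rfl⟩ := hmem
  refine ⟨F', fun v => ?_⟩
  rw [MvPolynomial.eval_map, MvPolynomial.aeval_def]
  rfl

end Lift

section Abstract

variable {Y : Type} [AddCommGroup Y] {X : Type} [AddCommGroup X]

/-- One level of charts on the TYPE `↥K'` of a subgroup `K'` of an abelian group `Y` carrying maps
`smulY τ`, in the shape of `Cech.InstIface.ChartMqAt` (at `L = ℚ̄`). -/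
def ChartAtSub (P : ValuationSubring Qb) (p : ℕ) (smulY : Γℚ → Y → Y) (K' : AddSubgroup Y)
    (c0 N : ℕ) : Prop :=
  ∃ (g : ℕ) (coord : K' → Fin g → Qb) (F : Fin g → MvPolynomial (Fin g ⊕ Fin g) Qb),
    (∀ x i, coord x i ∈ P.nonunits) ∧
    (∀ τ ∈ P.inertiaSubgroupIn ℚ, ∀ (x : K') (hx : smulY τ (x : Y) ∈ K') (i : Fin g),
      PowMem P p N (coord ⟨smulY τ (x : Y), hx⟩ i - τ (coord x i))) ∧
    (∀ i d, MvPolynomial.coeff d (F i) ∈ P ∧
      ∀ τ ∈ P.inertiaSubgroupIn ℚ, τ (MvPolynomial.coeff d (F i)) = MvPolynomial.coeff d (F i)) ∧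
    (∀ x y i, PowMem P p N
      (coord (x + y) i - MvPolynomial.eval (Sum.elim (coord x) (coord y)) (F i))) ∧
    (∀ x y, x ≠ y → ∃ i, ¬ PowMem P p c0 (coord x i - coord y i))

variable (P : ValuationSubring Qb) (p : ℕ) (smulY : Γℚ → Y → Y) (K' : AddSubgroup Y)
  (j : X →+ Y)

/-- the map `↥(K'.comap j) → ↥K'`. -/
def toSub (w : K'.comap j) : K' := ⟨j (w : X), w.2⟩

theorem toSub_injective (hj : Function.Injective j) : Function.Injective (toSub K' j) := by
  intro x y h
  apply Subtype.ext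
  apply hj
  exact congrArg (fun z : K' => (z : Y)) h

theorem toSub_add (x y : K'.comap j) : toSub K' j (x + y) = toSub K' j x + toSub K' j y := by
  apply Subtype.ext
  show j ((x : X) + (y : X)) = j (x : X) + j (y : X)
  exact map_add j _ _

/-- **Transport of charts** from the type `↥K'` to the type `↥(K'.comap j)` with the restricted
action, along an injective additive map `j` intertwining `act` and `smulY` on the inertia group. -/
theorem hasApproxCharts_comap (hj : Function.Injective j) (act : Γℚ → X → X)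
    (hact : ∀ τ ∈ P.inertiaSubgroupIn ℚ, ∀ x : X, j (act τ x) = smulY τ (j x))
    (hi : ∀ τ ∈ (P.inertiaSubgroupIn ℚ : Set Γℚ), ∀ x : X, act τ x - x ∈ K'.comap j)
    (h : ∃ c0 : ℕ, ∀ N : ℕ, ChartAtSub P p smulY K' c0 N) :
    HasApproxCharts p P (K'.comap j) (restrictAct act (K'.comap j)) := by
  obtain ⟨c0, hc0⟩ := h
  refine ⟨c0, fun N => ?_⟩
  obtain ⟨g, coord, F, hmem, heq, hF, hadd, hsep⟩ := hc0 N
  choose F' hF' using fun i => exists_lift_poly P (F i) (hF i)
  have hcoe : ∀ τ ∈ P.inertiaSubgroupIn ℚ, ∀ w : K'.comap j,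
      ((toSub K' j (restrictAct act (K'.comap j) τ w) : K') : Y) =
        smulY τ ((toSub K' j w : K') : Y) := by
    intro τ hτ w
    show j ((restrictAct act (K'.comap j) τ w : K'.comap j) : X) = smulY τ (j (w : X))
    rw [coe_restrictAct act (K'.comap j) hi hτ w, hact τ hτ]
  refine ⟨{ g := g
            coord := fun w i => coord (toSub K' j w) i
            coord_mem := fun w i => hmem _ i
            coord_inertia := ?_
            add_approx := ?_ }, ?_⟩
  · intro τ hτ w i
    have hx : smulY τ ((toSub K' j w : K') : Y) ∈ K' := by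
      rw [← hcoe τ hτ w]
      exact (toSub K' j _).2
    have h2 : toSub K' j (restrictAct act (K'.comap j) τ w) =
        ⟨smulY τ ((toSub K' j w : K') : Y), hx⟩ := Subtype.ext (hcoe τ hτ w)
    show PowMem P p N (coord (toSub K' j (restrictAct act (K'.comap j) τ w)) i -
      τ (coord (toSub K' j w) i))
    rw [h2]
    exact heq τ hτ (toSub K' j w) hx i
  · refine ⟨F', fun x y i => ?_⟩
    show PowMem P p N (coord (toSub K' j (x + y)) i - _)
    rw [toSub_add, hF' i]
    exact hadd (toSub K' j x) (toSub K' j y) i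
  · intro x y hxy
    obtain ⟨i, hi⟩ := hsep (toSub K' j x) (toSub K' j y)
      (fun h => hxy (toSub_injective K' j hj h))
    exact ⟨i, hi⟩

end Abstract

section Generic

variable {A : ValuationSubring Qb}
  {k : Type} [Field k] {π : A →+* k} [IsAlgClosed k]
variable {M q : ℕ} [NeZero M] [NeZero q] [Fact q.Prime] [CharP k q]
variable [Algebra.IsAlgebraic ℚ Qb]
variable {hdeg : finrankAlong Qb (heckeAlphaBar Qb M q) = q + 1} {hq : q.Prime} {hqM : ¬ q ∣ M}
variable {hrk : ∀ x ∈ maximalIdeal A, ∀ c : A, c ≠ 0 → ∃ j : ℕ, c ∣ x ^ j}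
  {hπ : Function.Surjective π}
variable {H : ResidueFacts A π M q hdeg hq hqM hrk hπ} {hA : A.LiesOverPrime q}

/-- `ChartMqAt` at `L = ℚ̄` is literally `ChartAtSub` for `K' := Km H hA m`. -/
theorem chartAtSub_of_chartMqAt {m c0 N : ℕ} (h : ChartMqAt H hA m c0 N) :
    ChartAtSub A q (fun (τ : Γℚ) (y : Pic0 Qb (FL Qb (M * q))) => τ • y) (Km H hA m) c0 N := by
  obtain ⟨g, coord, F, h1, h2, h3, h4, h5⟩ := h
  exact ⟨g, coord, F, h1, h2, h3, h4, h5⟩

/-- the subgroup `K_m ∩ J[m]` of `JTors (M q) m`. -/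
def KmT (H : ResidueFacts A π M q hdeg hq hqM hrk hπ) (hA : A.LiesOverPrime q) (m : ℕ) :
    AddSubgroup (JTors (M * q) m) :=
  (Km H hA m).comap (Pic0.torsion Qb (modularFunctionFieldBar (M * q)) m).subtype

/-- the Galois action on `JTors`, as a plain family of maps. -/
abbrev actT (N m : ℕ) : Γℚ → JTors N m → JTors N m := fun σ x => galTors N m σ x

/-- (i) for `KmT`. -/
theorem actT_sub_mem_KmT {m : ℕ} (hm : 0 < m) :
    ∀ τ ∈ (A.inertiaSubgroupIn ℚ : Set Γℚ), ∀ x : JTors (M * q) m,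
      actT (M * q) m τ x - x ∈ KmT H hA m := by
  intro τ hτ x
  show ((galTors (M * q) m τ x - x : JTors (M * q) m) : JZero (M * q)) ∈ Km H hA m
  rw [AddSubgroup.coe_sub, coe_galTors_apply]
  exact smul_sub_mem_Km hm hτ (Pic0.mem_torsion.mp x.2)

/-- **The generic-`k` form of the `ℚ̄`-end**: `ChartsMq H hA m` gives approximate charts on the
type `↥(KmT H hA m)` for the restricted Galois action. -/
theorem hasApproxCharts_of_chartsMq {m : ℕ} (hm : 0 < m) (h : ChartsMq H hA m) :
    HasApproxCharts q A (KmT H hA m) (restrictAct (actT (M * q) m) (KmT H hA m)) := by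
  obtain ⟨c0, hc0⟩ := h
  exact hasApproxCharts_comap A q (fun (τ : Γℚ) (y : Pic0 Qb (FL Qb (M * q))) => τ • y)
    (Km H hA m) (Pic0.torsion Qb (modularFunctionFieldBar (M * q)) m).subtype
    Subtype.val_injective (actT (M * q) m) (fun τ _ x => rfl) (actT_sub_mem_KmT hm)
    ⟨c0, fun N => chartAtSub_of_chartMqAt (hc0 N)⟩

end Generic

/-- `KmT` at the `ℚ̄`-instance is `KummerPn.KmTors`. -/
theorem kmT_eq_kmTors (M₀ p : ℕ) [NeZero M₀] [NeZero p] (hp : p.Prime) (hpM : ¬ p ∣ M₀)
    (P0 : ValuationSubring Qb) (hP0 : P0.LiesOverPrime p) (m : ℕ) :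
    haveI : Algebra.IsAlgebraic ℚ Qb := AlgebraicClosure.isAlgebraic ℚ
    haveI : Fact p.Prime := ⟨hp⟩
    haveI : IsAlgClosed (ResidueField P0) := FinalBase.isAlgClosed_residueField P0
    haveI : CharP (ResidueField P0) p := FinalBase.charP_residueField P0 hP0
    KmT (ResidueInst.residueFacts P0 (residue P0) M₀ p (hdegQb M₀ p hp hpM) hp hpM
      (FinalBase.rank_one P0 hp hP0) (FinalBase.residue_surjective P0)) hP0 m =
    KmTors M₀ p hp hpM P0 hP0 m := rfl

/-- **The `ℚ̄`-end**: `ChartsMq` at the `ℚ̄`-instances of all good levels, at ONE place over `p` for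
each good level, and all exponents `p ^ n` gives the geometric contract `ChartsAtGoodLevels` of the
consumer. -/
theorem chartsAtGoodLevels_of_chartsMqQb_exists
    (hgen : ∀ (M₀ p : ℕ) [NeZero M₀] [NeZero p] (hp : p.Prime), p ≠ 2 → ∀ (hpM : ¬ p ∣ M₀),
      4 ∣ M₀ → ∃ (P0 : ValuationSubring Qb) (hP0 : P0.LiesOverPrime p), ∀ n : ℕ,
        ChartsMqQb M₀ p hp hpM P0 hP0 (p ^ n)) :
    ChartsAtGoodLevels := by
  refine chartsAtGoodLevels_of_restrictAct ?_
  intro M₀ p _ hp hp2 hpM h4
  haveI : NeZero p := ⟨hp.ne_zero⟩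
  obtain ⟨P0, hP0, hch⟩ := hgen M₀ p hp hp2 hpM h4
  haveI : Algebra.IsAlgebraic ℚ Qb := AlgebraicClosure.isAlgebraic ℚ
  haveI : Fact p.Prime := ⟨hp⟩
  haveI : IsAlgClosed (ResidueField P0) := FinalBase.isAlgClosed_residueField P0
  haveI : CharP (ResidueField P0) p := FinalBase.charP_residueField P0 hP0
  refine ⟨P0, hP0, fun m => ⟨KmT (ResidueInst.residueFacts P0 (residue P0) M₀ p
    (hdegQb M₀ p hp hpM) hp hpM (FinalBase.rank_one P0 hp hP0)
    (FinalBase.residue_surjective P0)) hP0 (p ^ m), actT_sub_mem_KmT (pow_pos hp.pos m), ?_⟩⟩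
  exact hasApproxCharts_of_chartsMq (pow_pos hp.pos m) (hch m)

/-- the same, when `ChartsMq` is known at EVERY place over `p`. -/
theorem chartsAtGoodLevels_of_chartsMqQb
    (hgen : ∀ (M₀ p : ℕ) [NeZero M₀] [NeZero p] (hp : p.Prime), p ≠ 2 → ∀ (hpM : ¬ p ∣ M₀),
      4 ∣ M₀ → ∀ (P0 : ValuationSubring Qb) (hP0 : P0.LiesOverPrime p) (n : ℕ),
        ChartsMqQb M₀ p hp hpM P0 hP0 (p ^ n)) :
    ChartsAtGoodLevels := by
  refine chartsAtGoodLevels_of_chartsMqQb_exists ?_
  intro M₀ p _ _ hp hp2 hpM h4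
  obtain ⟨P0, hP0⟩ := Fermat.Agent.Lib.exists_valuationSubring_liesOverPrime (L := Qb) p hp
  exact ⟨P0, hP0, fun n => hgen M₀ p hp hp2 hpM h4 P0 hP0 n⟩

end Fermat.Agent.S33x.Consumer.QbEnd
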