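import Mathlib
import Fermat.Agent.S33x.Iface.ApproxChart
import Fermat.Agent.S33x.Consumer.OfSubgroup
import Fermat.Agent.S33x.Consumer.GoodLevelTarget

/-!
# S33 consumer (helper95), TOP ASSEMBLY of LAYER 4 (interface X4)

The whole of P-S33 is reduced (`GoodLevelTarget.qOrdTarget_of_goodLevels`, `Final.s33_of_target`) to
the closed proposition `GoodLevelTarget.QOrdAtGoodLevels`.  This file splits that proposition into
the two contracts of the geometric layers:

* `Iface.NoTrivOfCharts` (LAYER 3, file `S33x/Iface/ApproxChart.lean`): a finite `p`-group with an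
  inertia action carrying approximate charts at every level has no nonzero subquotient with trivial
  inertia action;
* `ChartsAtGoodLevels` (KummerPn + LAYERS 1, 2, this file): at every good level `M = M₀ * p` there is
  ONE place `P0` over `p` such that for every `m` the group `JTors M (p ^ m)` has a subgroup `K`
  (the Kummer subgroup `K_m`) with
  - (i) `τ x - x ∈ K` for every `τ` in the inertia group of `P0` and every `x`,
  - an action `actK` on the TYPE `↥K` which agrees with the Galois action for `τ` in the inertia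
    group (for instance `OfSubgroup.restrictAct` or `L3.NoTrivSub.restrictAct`),
  - `Iface.HasApproxCharts p P0 ↥K actK`.

`qOrdAtGoodLevels_of_charts : NoTrivOfCharts → ChartsAtGoodLevels → QOrdAtGoodLevels`, hence
`s33_of_charts`: the frozen statement S33 from the two contracts.
-/

set_option autoImplicit false
set_option linter.unusedSectionVars false
set_option linter.style.haveILetI false

noncomputable section

namespace Fermat.Agent.S33x.Consumer.Top

open Fermat.Agent.S33x.Consumer.Ord Fermat.Agent.S33x.Consumer.Final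
  Fermat.Agent.S33x.Consumer.GoodLevelTarget Fermat.Agent.S33x.Iface
  Fermat.Agent.Gateway.S31Red

local notation "Γℚ" => (AlgebraicClosure ℚ ≃ₐ[ℚ] AlgebraicClosure ℚ)
local notation "Qb" => AlgebraicClosure ℚ

/-- The geometric input at ONE level `M`, ONE place `P0` over `p` and ONE exponent `m`: a subgroup
`K` of `J₀(M)[p ^ m]` containing all `τ x - x` (`τ` in the inertia group of `P0`), with approximate
charts at every precision for an action on the type `↥K` agreeing with the Galois action on the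
inertia group. -/
def ChartsAt (M p : ℕ) (P0 : ValuationSubring Qb) (m : ℕ) : Prop :=
  ∃ (K : AddSubgroup (JTors M (p ^ m))) (actK : Γℚ → K → K),
    (∀ τ ∈ P0.inertiaSubgroupIn ℚ, ∀ w : K,
      ((actK τ w : K) : JTors M (p ^ m)) = galTors M (p ^ m) τ (w : JTors M (p ^ m))) ∧
    (∀ τ ∈ P0.inertiaSubgroupIn ℚ, ∀ x : JTors M (p ^ m), galTors M (p ^ m) τ x - x ∈ K) ∧
    HasApproxCharts p P0 K actK

/-- **The contract of KummerPn + LAYERS 1, 2**: charts on the Kummer subgroups at the good levels. -/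
def ChartsAtGoodLevels : Prop :=
  ∀ (M₀ p : ℕ) [NeZero M₀], p.Prime → p ≠ 2 → ¬ p ∣ M₀ → 4 ∣ M₀ →
    ∃ P0 : ValuationSubring Qb, P0.LiesOverPrime p ∧ ∀ m : ℕ, ChartsAt (M₀ * p) p P0 m

/-- One level, one place, one exponent: `OrdPts` from the charts and the LAYER 3 contract. -/
theorem ordPts_of_chartsAt (hL3 : NoTrivOfCharts) {M p : ℕ} [NeZero M] (hp : p.Prime)
    (hp2 : p ≠ 2) (P0 : ValuationSubring Qb) (hP0 : P0.LiesOverPrime p) (m : ℕ)
    (h : ChartsAt M p P0 m) :
    OrdPts (P0.inertiaSubgroupIn ℚ : Set Γℚ)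
      (fun σ (x : JTors M (p ^ m)) => galTors M (p ^ m) σ x) := by
  obtain ⟨K, actK, hcompat, hi, hcharts⟩ := h
  have hD5 := Fermat.Agent.Gateway.Export.d5Input M
  haveI : Finite (JTors M (p ^ m)) :=
    Fermat.Agent.Gateway.Assembly.finite_JTors
      (Fermat.Agent.Gateway.Export.coreInputs M hD5) (p ^ m) (pow_pos hp.pos m)
  refine Fermat.Agent.S33x.Consumer.OfSubgroup.ordPts_of_noTriv_subtype
    (P0.inertiaSubgroupIn ℚ : Set Γℚ) (fun σ (x : JTors M (p ^ m)) => galTors M (p ^ m) σ x) K actK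
    hcompat hi ?_
  intro A B hAB hA htriv
  refine hL3 p hp hp2 P0 hP0 K actK ?_ ?_ ?_ ?_ hcharts A B hAB hA htriv
  · intro x
    apply Subtype.ext
    rw [hcompat 1 (one_mem _) x, map_one]
    rfl
  · intro σ hσ τ hτ x
    apply Subtype.ext
    rw [hcompat (σ * τ) (mul_mem hσ hτ) x, hcompat σ hσ, hcompat τ hτ x, map_mul]
    rfl
  · intro σ hσ x y
    apply Subtype.ext
    rw [AddSubgroup.coe_add, hcompat σ hσ, hcompat σ hσ, hcompat σ hσ, AddSubgroup.coe_add, map_add]
  · intro x
    refine ⟨m, Subtype.ext (Subtype.ext ?_)⟩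
    have h0 := nsmul_coe_eq_zero (N := M) (x : JTors M (p ^ m))
    rw [AddSubgroup.coe_nsmul, AddSubgroup.coe_nsmul, AddSubgroup.coe_zero, AddSubgroup.coe_zero]
    exact h0

/-- **TOP ASSEMBLY of LAYER 4**: the two contracts give the geometric target at the good levels. -/
theorem qOrdAtGoodLevels_of_charts (hL3 : NoTrivOfCharts) (hgeo : ChartsAtGoodLevels) :
    QOrdAtGoodLevels := by
  intro M₀ p _ hp hp2 hpM₀ h4
  haveI : NeZero (M₀ * p) := ⟨mul_ne_zero (NeZero.ne M₀) hp.ne_zero⟩
  obtain ⟨P0, hP0, hch⟩ := hgeo M₀ p hp hp2 hpM₀ h4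
  exact ⟨P0, hP0, fun m => ordPts_of_chartsAt hL3 hp hp2 P0 hP0 m (hch m)⟩

/-- The target of the consumer from the two contracts. -/
theorem qOrdTarget_of_charts (hL3 : NoTrivOfCharts) (hgeo : ChartsAtGoodLevels) : QOrdTarget :=
  qOrdTarget_of_goodLevels (qOrdAtGoodLevels_of_charts hL3 hgeo)

variable {p N : ℕ} [NeZero N] {S : Finset ℕ}
  {𝒪 : Type} [CommRing 𝒪] [IsDomain 𝒪] [IsDiscreteValuationRing 𝒪]
  [IsAdicComplete (IsLocalRing.maximalIdeal 𝒪) 𝒪]
  {θ : CuspForm.heckeAlgebra N 2 (↑S : Set ℕ) →+* IsLocalRing.ResidueField 𝒪}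
  {T : Type} [CommRing T] [IsLocalRing T] [IsNoetherianRing T]
  [IsAdicComplete (IsLocalRing.maximalIdeal T) T] [Algebra 𝒪 T] [IsLocalHom (algebraMap 𝒪 T)]
  [Module.Finite 𝒪 T] [Module.Free 𝒪 T]

/-- **The frozen statement S33 from the two contracts.** -/
theorem s33_of_charts (hL3 : NoTrivOfCharts) (hgeo : ChartsAtGoodLevels)
    [Finite (IsLocalRing.ResidueField 𝒪)]
    (hp : p.Prime) (hp2 : p ≠ 2) (hp𝒪 : (p : 𝒪) ∈ IsLocalRing.maximalIdeal 𝒪)
    (hN : p ∣ N ∧ ¬ p ^ 2 ∣ N) (hNS : ∀ q : ℕ, q.Prime → q ∣ N → q ∈ S)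
    (H : CuspForm.HeckeGaloisRepDatum N (↑S : Set ℕ) 𝒪 θ T)
    (hres : (GaloisRepAdic.ofResidualGaloisRep H.ρ.residual).IsOrdinaryAt p) :
    H.ρ.IsOrdinaryAt p :=
  s33_of_target (qOrdTarget_of_charts hL3 hgeo) hp hp2 hp𝒪 hN hNS H hres

end Fermat.Agent.S33x.Consumer.Top
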